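/-
S34 / Program B', M6b-concrete (i), CHART LEVEL (helper68).

`K ⊆ L` fields over a discrete valuation ring `A₀` (in the application `K = F_{M',E}`,
`L = F_{qM',E}` along `α`, `E` the inertia field), `x ∈ K` the coordinate, `O₀` the Gauss ring of
`K` (`DSetup A₀ O₀ x`), `V₁`, `V₂` the two valuation subrings of `L` over `O₀` (`H64.TwoExt`).
`S₀ = chart A₀ x` (the level-`M'` chart), `C₀ = chart A₀ (α x)` (the level-`qM'` chart).

* `chartMap`, `chartAlgTop` : the inclusion `S₀ → C₀` and the algebra structure;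
  `chart_isIntegralClosure`, `chart_finite_top` : `C₀` is the integral closure of `S₀` in `L`, a
  finite `S₀`-module;
* `valIdeal C V` : the prime ideal `C ∩ m(V)` of a subalgebra `C ⊆ V`;
* `valIdeal_inf_eq` : `P1 ⊓ P2 = (ϖ)` in `C₀` (reduced special fibre);
* `dvd_of_chartMap_mem_valIdeal` : `P_i ∩ S₀ = ϖ S₀`;
* `exists_sub_chartMap_mem` : `S₀ → C₀ / P1` is surjective;
* `exists_loc` : `O₀` is the localisation of `S₀` at `(ϖ)`.
-/
import Fermat.Agent.S34.H10.M3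
import Fermat.Agent.S34.H78.ChartBase
import Fermat.Agent.S34.H97.ResidueOne
import Fermat.Agent.S34.H6.TwoExt

set_option autoImplicit false
set_option linter.style.haveILetI false
set_option linter.unusedSectionVars false

open Polynomial

noncomputable section

namespace Fermat.Agent.S34.H68

open Fermat.Agent.S18 Fermat.Agent.S18.H19 Fermat.Agent.S34.H6

/-! ### The inclusion of charts -/

section Maps

variable {A₀ : Type*} [CommRing A₀] {K L : Type*} [Field K] [Field L]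
  [Algebra A₀ K] [Algebra A₀ L] [Algebra K L] [IsScalarTower A₀ K L]

/-- The image in `L` of an element of the chart of `x` lies in the chart of the image of `x`. -/
theorem algebraMap_mem_chart (x : K) (c : ↥(chart A₀ x)) :
    algebraMap K L (c : K) ∈ chart A₀ (algebraMap K L x) :=
  H10.mem_chart_map_of_isIntegral x
    (isIntegral_algebraMap (R := ↥(chart A₀ x)) (A := L) (x := c))

/-- The inclusion of the chart of `x` in `K` into the chart of `x` in `L`. -/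
def chartMap (x : K) : ↥(chart A₀ x) →+* ↥(chart A₀ (algebraMap K L x)) where
  toFun c := ⟨algebraMap K L (c : K), algebraMap_mem_chart x c⟩
  map_one' := Subtype.ext (map_one _)
  map_mul' _ _ := Subtype.ext (map_mul _ _ _)
  map_zero' := Subtype.ext (map_zero _)
  map_add' _ _ := Subtype.ext (map_add _ _ _)

@[simp] theorem coe_chartMap (x : K) (c : ↥(chart A₀ x)) :
    ((chartMap (L := L) x c : ↥(chart A₀ (algebraMap K L x))) : L) = algebraMap K L (c : K) := rfl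

theorem chartMap_injective (x : K) : Function.Injective (chartMap (A₀ := A₀) (L := L) x) := by
  intro a b hab
  apply Subtype.ext
  apply (algebraMap K L).injective
  exact congrArg Subtype.val hab

theorem chartMap_algebraMap (x : K) (a : A₀) :
    chartMap (L := L) x (algebraMap A₀ ↥(chart A₀ x) a) =
      algebraMap A₀ ↥(chart A₀ (algebraMap K L x)) a := by
  apply Subtype.ext
  exact (IsScalarTower.algebraMap_apply A₀ K L a).symm

/-- The algebra structure of the top chart over the bottom chart (use with `letI`). -/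
abbrev chartAlgTop (x : K) : Algebra ↥(chart A₀ x) ↥(chart A₀ (algebraMap K L x)) :=
  (chartMap x).toAlgebra

theorem chart_isScalarTower (x : K) :
    letI := chartAlgTop (A₀ := A₀) (L := L) x
    IsScalarTower ↥(chart A₀ x) ↥(chart A₀ (algebraMap K L x)) L := by
  letI := chartAlgTop (A₀ := A₀) (L := L) x
  exact IsScalarTower.of_algebraMap_eq fun c => rfl

/-- The top chart is the integral closure of the bottom chart. -/
theorem chart_isIntegralClosure (x : K) :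
    IsIntegralClosure ↥(chart A₀ (algebraMap K L x)) ↥(chart A₀ x) L := by
  refine ⟨Subtype.val_injective, fun {y} => ?_⟩
  rw [← H10.mem_chart_map_iff]
  exact ⟨fun h => ⟨⟨y, h⟩, rfl⟩, by rintro ⟨c, rfl⟩; exact c.2⟩

end Maps

/-! ### The ideal cut out by a valuation subring -/

section ValIdeal

variable {A₀ : Type*} [CommRing A₀] {L : Type*} [Field L] [Algebra A₀ L]

/-- The ideal `C ∩ m(V)` of a subalgebra `C ⊆ V`. -/
def valIdeal (C : Subalgebra A₀ L) (V : ValuationSubring L) (hCV : ∀ c ∈ C, c ∈ V) :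
    Ideal ↥C where
  carrier := {c | (c : L) ∈ V.nonunits}
  add_mem' := fun {a b} ha hb => add_mem_nonunits V ha hb
  zero_mem' := (mem_nonunits_iff_inv V 0).mpr (Or.inl rfl)
  smul_mem' := fun c a ha => by
    show ((c * a : ↥C) : L) ∈ V.nonunits
    rw [MulMemClass.coe_mul, mul_comm]
    exact mul_mem_nonunits_left V ha (hCV _ c.2)

theorem mem_valIdeal {C : Subalgebra A₀ L} {V : ValuationSubring L} {hCV : ∀ c ∈ C, c ∈ V}
    {c : ↥C} : c ∈ valIdeal C V hCV ↔ (c : L) ∈ V.nonunits := Iff.rfl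

theorem valIdeal_isPrime (C : Subalgebra A₀ L) (V : ValuationSubring L)
    (hCV : ∀ c ∈ C, c ∈ V) : (valIdeal C V hCV).IsPrime := by
  rw [Ideal.isPrime_iff]
  refine ⟨?_, ?_⟩
  · rw [Ideal.ne_top_iff_one, mem_valIdeal, OneMemClass.coe_one, mem_nonunits_iff_inv]
    simp
  · intro a b hab
    by_contra h
    push Not at h
    rw [mem_valIdeal, MulMemClass.coe_mul] at hab
    exact h.1 (mem_nonunits_of_mul_mem V hab h.2 (hCV _ a.2))

end ValIdeal

/-! ### The level below: `O₀` and the chart -/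

section Below

variable {A₀ : Type*} [CommRing A₀] [IsDomain A₀] [IsDiscreteValuationRing A₀] [CharZero A₀]
  {K : Type*} [Field K] [Algebra A₀ K] [FaithfulSMul A₀ K]
  (ϖ : A₀) (hϖ : Irreducible ϖ) (O₀ : ValuationSubring K) (x : K) (hS : DSetup A₀ O₀ x)

include hϖ hS in
/-- `S₀ ∩ m(O₀) = ϖ S₀`, in divisibility form. -/
theorem dvd_of_mem_nonunits (a : ↥(chart A₀ x)) (ha : (a : K) ∈ O₀.nonunits) :
    algebraMap A₀ ↥(chart A₀ x) ϖ ∣ a := by
  obtain ⟨c, hc, hac⟩ := Fermat.Agent.S18.H6.chart_mem_nonunits ϖ hϖ O₀ x hS a a.2 ha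
  refine ⟨⟨c, hc⟩, Subtype.ext ?_⟩
  rw [hac, Algebra.smul_def]
  rfl

include hϖ hS in
/-- Multiples of `ϖ` in the chart lie in `m(O₀)`. -/
theorem mem_nonunits_of_dvd (a : ↥(chart A₀ x)) (ha : algebraMap A₀ ↥(chart A₀ x) ϖ ∣ a) :
    (a : K) ∈ O₀.nonunits := by
  obtain ⟨e, rfl⟩ := ha
  exact mul_mem_nonunits_left O₀ (H80.ds_unif_mem_nonunits hϖ hS) (H80.ds_chart_le hS _ e.2)

include hϖ hS in
/-- `O₀` is the localisation of the chart at `(ϖ)`. -/
theorem exists_loc (v : K) (hv : v ∈ O₀) :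
    ∃ a b : ↥(chart A₀ x), (b : K) ∉ O₀.nonunits ∧ v * (b : K) = (a : K) := by
  obtain ⟨g, hgu, hg⟩ := H80.exists_unit_mul_mem_chart_of_sat hϖ hS
    (Fermat.Agent.S18.H6.chart_sat ϖ hϖ O₀ x hS) hv
  refine ⟨⟨_, hg⟩, ⟨aeval x g, H80.ds_aeval_mem_chart x g⟩, ?_, mul_comm _ _⟩
  rw [not_mem_nonunits_iff]
  exact ⟨H80.ds_aeval_ne_zero_of_unit hS g hgu, (hS.gauss g hgu).2⟩

end Below

/-! ### The top chart and its two components -/

section Top

variable {A₀ : Type*} [CommRing A₀] [IsDomain A₀] [IsDiscreteValuationRing A₀] [CharZero A₀]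
  {K L : Type*} [Field K] [Field L] [Algebra A₀ K] [Algebra A₀ L] [Algebra K L]
  [IsScalarTower A₀ K L] [FaithfulSMul A₀ K]
  (ϖ : A₀) (hϖ : Irreducible ϖ) (O₀ : ValuationSubring K) (x : K) (hS : DSetup A₀ O₀ x)

omit [IsDomain A₀] [IsDiscreteValuationRing A₀] [CharZero A₀] [FaithfulSMul A₀ K] in
/-- The comap form of "`V` lies over `O₀`". -/
theorem comap_eq_of_forall (V : ValuationSubring L)
    (hc : ∀ v : K, algebraMap K L v ∈ V ↔ v ∈ O₀) : V.comap (algebraMap K L) = O₀ := by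
  ext v
  rw [ValuationSubring.mem_comap]
  exact hc v

include hS in
/-- The top chart lies in every valuation subring over `O₀`. -/
theorem chart_top_le (V : ValuationSubring L) (hc : ∀ v : K, algebraMap K L v ∈ V ↔ v ∈ O₀) :
    ∀ c ∈ chart A₀ (algebraMap K L x), c ∈ V := by
  refine H72.chart_subset_valuationSubring V (fun a => ?_) ((hc x).mpr (H80.ds_x_mem hS))
  rw [IsScalarTower.algebraMap_apply A₀ K L]
  exact (hc _).mpr (H80.ds_algebraMap_mem hS a)

/-- The prime `C₀ ∩ m(V)` of the top chart, for a valuation subring `V` of `L` over `O₀`. -/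
def topIdeal (V : ValuationSubring L) (hc : ∀ v : K, algebraMap K L v ∈ V ↔ v ∈ O₀) :
    Ideal ↥(chart A₀ (algebraMap K L x)) :=
  valIdeal _ V (chart_top_le O₀ x hS V hc)

theorem mem_topIdeal {V : ValuationSubring L} {hc : ∀ v : K, algebraMap K L v ∈ V ↔ v ∈ O₀}
    {c : ↥(chart A₀ (algebraMap K L x))} :
    c ∈ topIdeal O₀ x hS V hc ↔ (c : L) ∈ V.nonunits := Iff.rfl

theorem topIdeal_isPrime (V : ValuationSubring L)
    (hc : ∀ v : K, algebraMap K L v ∈ V ↔ v ∈ O₀) : (topIdeal O₀ x hS V hc).IsPrime :=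
  valIdeal_isPrime _ V _

include hϖ in
/-- `P ∩ S₀ = ϖ S₀` for both components. -/
theorem dvd_of_chartMap_mem (V : ValuationSubring L)
    (hc : ∀ v : K, algebraMap K L v ∈ V ↔ v ∈ O₀) (a : ↥(chart A₀ x))
    (ha : chartMap x a ∈ topIdeal O₀ x hS V hc) : algebraMap A₀ ↥(chart A₀ x) ϖ ∣ a := by
  apply dvd_of_mem_nonunits ϖ hϖ O₀ x hS
  have h1 : algebraMap K L (a : K) ∈ V.nonunits := ha
  rwa [algebraMap_mem_nonunits_iff O₀ V (comap_eq_of_forall O₀ V hc)] at h1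

include hϖ in
/-- `ϖ S₀ ⊆ P ∩ S₀` for both components. -/
theorem chartMap_mem_of_dvd (V : ValuationSubring L)
    (hc : ∀ v : K, algebraMap K L v ∈ V ↔ v ∈ O₀) (a : ↥(chart A₀ x))
    (ha : algebraMap A₀ ↥(chart A₀ x) ϖ ∣ a) : chartMap x a ∈ topIdeal O₀ x hS V hc := by
  show algebraMap K L (a : K) ∈ V.nonunits
  rw [algebraMap_mem_nonunits_iff O₀ V (comap_eq_of_forall O₀ V hc)]
  exact mem_nonunits_of_dvd ϖ hϖ O₀ x hS a ha

variable (V₁ V₂ : ValuationSubring L)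
  (hc₁ : ∀ v : K, algebraMap K L v ∈ V₁ ↔ v ∈ O₀)
  (hc₂ : ∀ v : K, algebraMap K L v ∈ V₂ ↔ v ∈ O₀)

include hϖ in
/-- **The special fibre of the top chart is reduced**: `P1 ⊓ P2 = (ϖ)`. -/
theorem topIdeal_inf_eq [Algebra.IsAlgebraic K L] (hT : H64.TwoExt O₀ V₁ V₂) :
    topIdeal O₀ x hS V₁ hc₁ ⊓ topIdeal O₀ x hS V₂ hc₂ =
      Ideal.span {algebraMap A₀ ↥(chart A₀ (algebraMap K L x)) ϖ} := by
  have hπ0 : algebraMap A₀ K ϖ ≠ 0 := H80.ds_algebraMap_ne_zero hS hϖ.ne_zero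
  have hπL : algebraMap K L (algebraMap A₀ K ϖ) = algebraMap A₀ L ϖ :=
    (IsScalarTower.algebraMap_apply A₀ K L ϖ).symm
  have hπL0 : algebraMap A₀ L ϖ ≠ 0 := by
    rw [← hπL]
    exact (map_ne_zero_iff _ (algebraMap K L).injective).mpr hπ0
  have hA : ∀ a : A₀, algebraMap A₀ K a ∈ O₀ := H80.ds_algebraMap_mem hS
  have hπm : algebraMap A₀ K ϖ ∈ O₀.nonunits := H80.ds_unif_mem_nonunits hϖ hS
  have hsc₀ : H10.HasScale ϖ O₀ := H10.hasScale_of_dsetup hϖ hS
  have hgen₀ : ∀ a ∈ O₀.nonunits, a / algebraMap A₀ K ϖ ∈ O₀ :=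
    fun a ha => H10.div_mem_of_hasScale hsc₀ (hA ϖ) ha
  haveI : IsIntegrallyClosed ↥(chart A₀ x) := H95.chart_isIntegrallyClosed' x
  have hint : ∀ y : L, y ∈ V₁ → y ∈ V₂ → IsIntegral ↥O₀ y :=
    fun y h1 h2 => (hT.integral_iff y).mpr ⟨h1, h2⟩
  have hsat := H10.chart_sat_top ϖ hπ0 x (H95.chart_frac O₀ x hS) O₀ hA
    (Fermat.Agent.S18.H6.chart_sat ϖ hϖ O₀ x hS) V₁ V₂ hint
  apply le_antisymm
  · rintro c ⟨h1, h2⟩
    have h1' : (c : L) ∈ V₁.nonunits := h1
    have h2' : (c : L) ∈ V₂.nonunits := h2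
    have d1 := hT.unif₁ _ hπm hgen₀ _ h1'
    have d2 := hT.unif₂ _ hπm hgen₀ _ h2'
    rw [hπL] at d1 d2
    have hmem : (c : L) / algebraMap A₀ L ϖ ∈ chart A₀ (algebraMap K L x) := by
      apply hsat _ d1 d2
      rw [Algebra.smul_def, mul_div_cancel₀ _ hπL0]
      exact c.2
    rw [Ideal.mem_span_singleton]
    refine ⟨⟨_, hmem⟩, Subtype.ext ?_⟩
    show (c : L) = algebraMap A₀ L ϖ * ((c : L) / algebraMap A₀ L ϖ)
    rw [mul_div_cancel₀ _ hπL0]
  · rw [Ideal.span_singleton_le_iff_mem]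
    constructor
    · show algebraMap A₀ L ϖ ∈ V₁.nonunits
      rw [← hπL, algebraMap_mem_nonunits_iff O₀ V₁ (comap_eq_of_forall O₀ V₁ hc₁)]
      exact hπm
    · show algebraMap A₀ L ϖ ∈ V₂.nonunits
      rw [← hπL, algebraMap_mem_nonunits_iff O₀ V₂ (comap_eq_of_forall O₀ V₂ hc₂)]
      exact hπm

include hϖ in
/-- **`S₀ → C₀ / P1` is surjective** (`f(V₁ | O₀) = 1` and `S₀ / ϖ` normal). -/
theorem exists_sub_chartMap_mem (hT : H64.TwoExt O₀ V₁ V₂)
    (c : ↥(chart A₀ (algebraMap K L x))) :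
    ∃ a : ↥(chart A₀ x), c - chartMap x a ∈ topIdeal O₀ x hS V₁ hc₁ := by
  have hprime : Prime (algebraMap A₀ ↥(chart A₀ x) ϖ) := H78.chart_prime_unif ϖ hϖ O₀ x hS
  haveI : (Ideal.span {algebraMap A₀ ↥(chart A₀ x) ϖ}).IsPrime :=
    (Ideal.span_singleton_prime hprime.ne_zero).mpr hprime
  haveI : IsDedekindDomain
      (↥(chart A₀ x) ⧸ Ideal.span {algebraMap A₀ ↥(chart A₀ x) ϖ}) :=
    H78.chart_dedekind_of_dsetup ϖ hϖ O₀ x hS
  have hπm0 : algebraMap A₀ K ϖ ∈ O₀.nonunits := H80.ds_unif_mem_nonunits hϖ hS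
  have hπm : algebraMap ↥(chart A₀ x) K (algebraMap A₀ ↥(chart A₀ x) ϖ) ∈ O₀.nonunits := hπm0
  obtain ⟨s, hs⟩ := H97.exists_sub_mem_nonunits_of_isIntegral O₀ V₁
    (comap_eq_of_forall O₀ V₁ hc₁) (algebraMap A₀ ↥(chart A₀ x) ϖ)
    (fun s => H80.ds_chart_le hS _ s.2) hπm
    (fun s hs => dvd_of_mem_nonunits ϖ hϖ O₀ x hS s hs)
    (fun v hv => by
      obtain ⟨a, b, hb, hab⟩ := exists_loc ϖ hϖ O₀ x hS v hv
      exact ⟨a, b, fun hdvd => hb (mem_nonunits_of_dvd ϖ hϖ O₀ x hS b hdvd), hab⟩)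
    hT.res₁ (c : L) (H10.isIntegral_of_mem_chart_map x c.2)
  exact ⟨s, hs⟩

end Top

end Fermat.Agent.S34.H68
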