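/-
S34 / Program B', M6b-concrete (i) (helper68): **the crossing points of the two components are
regular nodes over an unramified base**, in the vocabulary of helper10's (M3).

`K ⊆ L` fields over a discrete valuation ring `A₀` in which the prime number `q` is a uniformiser
(in the application `A₀ = A ∩ E`, `E` the inertia field; `K = F_{M',E}`, `L = F_{qM',E}` along
`α`), `x ∈ K` the coordinate, `O₀` the Gauss ring of `K` (`DSetup A₀ O₀ x`), `V₁ ≠ V₂` the two
valuation subrings of `L` over `O₀` (`H64.TwoExt`), `[L : K] = q + 1`, `β : K → L` the second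
degeneracy map and `σ` the Frobenius twist of `K`, with the Kronecker congruences
`β g ≡ α (σ⁻¹ g) ^ q` modulo `m(V₁)` and `α f ≡ β (σ⁻¹ f) ^ q` modulo `m(V₂)` on the chart, and
the primes of the level-`qM'` chart `C₀ = chart A₀ (α x)` not containing `q` unramified over the
level-`M'` chart `S₀ = chart A₀ x`.

`crossing_regular_of_dsetup` : at every maximal ideal `x₀` of `C₀` containing both components,
the local ring of `C₀` is a regular node: `m = (J, b)`, `J * b = q`.
-/
import Fermat.Agent.S34.H68.CrossChart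
import Fermat.Agent.S34.H68.CrossLoc

set_option autoImplicit false
set_option linter.style.haveILetI false
set_option linter.unusedSectionVars false

open Polynomial

noncomputable section

namespace Fermat.Agent.S34.H68

open Fermat.Agent.S18 Fermat.Agent.S18.H19 Fermat.Agent.S34.H6 IsLocalRing

section Equiv

variable {A₀ : Type*} [CommRing A₀] {K L : Type*} [Field K] [Field L]
  [Algebra A₀ K] [Algebra A₀ L] [Algebra K L] [IsScalarTower A₀ K L]

/-- The restriction to the chart of an automorphism preserving it. -/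
def chartEquiv (x : K) (σ : K ≃+* K) (hσC : ∀ f : K, σ f ∈ chart A₀ x ↔ f ∈ chart A₀ x) :
    ↥(chart A₀ x) ≃+* ↥(chart A₀ x) where
  toFun c := ⟨σ c, (hσC c).mpr c.2⟩
  invFun c := ⟨σ.symm c, (hσC (σ.symm c)).mp (by rw [σ.apply_symm_apply]; exact c.2)⟩
  left_inv c := Subtype.ext (σ.symm_apply_apply _)
  right_inv c := Subtype.ext (σ.apply_symm_apply _)
  map_mul' _ _ := Subtype.ext (map_mul σ _ _)
  map_add' _ _ := Subtype.ext (map_add σ _ _)

theorem coe_chartEquiv (x : K) (σ : K ≃+* K)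
    (hσC : ∀ f : K, σ f ∈ chart A₀ x ↔ f ∈ chart A₀ x) (c : ↥(chart A₀ x)) :
    ((chartEquiv x σ hσC c : ↥(chart A₀ x)) : K) = σ c := rfl

theorem coe_chartEquiv_symm (x : K) (σ : K ≃+* K)
    (hσC : ∀ f : K, σ f ∈ chart A₀ x ↔ f ∈ chart A₀ x) (c : ↥(chart A₀ x)) :
    (((chartEquiv x σ hσC).symm c : ↥(chart A₀ x)) : K) = σ.symm c := rfl

/-- The restriction to the charts of a ring homomorphism `K → L` mapping the chart of `x` into the
chart of the image of `x`. -/
def chartBeta (x : K) (β : K →+* L)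
    (hβC : ∀ f ∈ chart A₀ x, β f ∈ chart A₀ (algebraMap K L x)) :
    ↥(chart A₀ x) →+* ↥(chart A₀ (algebraMap K L x)) where
  toFun c := ⟨β c, hβC c c.2⟩
  map_one' := Subtype.ext (map_one β)
  map_mul' _ _ := Subtype.ext (map_mul β _ _)
  map_zero' := Subtype.ext (map_zero β)
  map_add' _ _ := Subtype.ext (map_add β _ _)

theorem coe_chartBeta (x : K) (β : K →+* L)
    (hβC : ∀ f ∈ chart A₀ x, β f ∈ chart A₀ (algebraMap K L x)) (c : ↥(chart A₀ x)) :
    ((chartBeta x β hβC c : ↥(chart A₀ (algebraMap K L x))) : L) = β c := rfl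

/-- A ring homomorphism `β : K → L` which is `A₀`-linear and maps `x` into the chart of `α x`
maps the chart of `x` into the chart of `α x` (the hypothesis `hβC` of
`crossing_regular_of_dsetup`). -/
theorem beta_mem_chart (x : K) (β : K →+* L)
    (hβA : ∀ a : A₀, β (algebraMap A₀ K a) = algebraMap A₀ L a)
    (hβx : β x ∈ chart A₀ (algebraMap K L x)) :
    ∀ f ∈ chart A₀ x, β f ∈ chart A₀ (algebraMap K L x) := by
  intro f hf
  have hadj : ∀ z ∈ Algebra.adjoin A₀ ({x} : Set K), β z ∈ chart A₀ (algebraMap K L x) := by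
    intro z hz
    induction hz using Algebra.adjoin_induction with
    | mem z hz =>
      rw [Set.mem_singleton_iff.mp hz]
      exact hβx
    | algebraMap a =>
      rw [hβA]
      exact Subalgebra.algebraMap_mem _ a
    | add z w _ _ hz hw =>
      rw [map_add]
      exact add_mem hz hw
    | mul z w _ _ hz hw =>
      rw [map_mul]
      exact mul_mem hz hw
  let φ : ↥(Algebra.adjoin A₀ ({x} : Set K)) →+* ↥(chart A₀ (algebraMap K L x)) :=
    { toFun := fun z => ⟨β z, hadj z z.2⟩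
      map_one' := Subtype.ext (map_one β)
      map_mul' := fun _ _ => Subtype.ext (map_mul β _ _)
      map_zero' := Subtype.ext (map_zero β)
      map_add' := fun _ _ => Subtype.ext (map_add β _ _) }
  have h1 : IsIntegral ↥(chart A₀ (algebraMap K L x)) (β f) :=
    ((mem_chart_iff A₀).mp hf).map_of_comp_eq φ β (RingHom.ext fun b => rfl)
  have h2 := Fermat.Agent.S34.H10.mem_chart_map_of_isIntegral (A₀ := A₀) (K := L) (L := L)
    (algebraMap K L x) h1
  exact h2

end Equiv

section Main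

variable {A₀ : Type*} [CommRing A₀] [IsDomain A₀] [IsDiscreteValuationRing A₀] [CharZero A₀]
  {K L : Type*} [Field K] [Field L] [Algebra A₀ K] [Algebra A₀ L] [Algebra K L]
  [IsScalarTower A₀ K L] [FaithfulSMul A₀ K] [FiniteDimensional K L]

attribute [local instance] chartAlgTop

/-- The scalar tower of the two charts (local instance). -/
local instance chartTower (x : K) :
    IsScalarTower ↥(chart A₀ x) ↥(chart A₀ (algebraMap K L x)) L :=
  chart_isScalarTower x

omit [IsDomain A₀] [IsDiscreteValuationRing A₀] [CharZero A₀] [FaithfulSMul A₀ K]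
  [FiniteDimensional K L] in
theorem algebraMap_chart_eq (x : K) :
    algebraMap ↥(chart A₀ x) ↥(chart A₀ (algebraMap K L x)) = chartMap x := rfl

/-- The top chart is a finite module over the bottom chart. -/
theorem chart_finite_top (O₀ : ValuationSubring K) (x : K) (hS : DSetup A₀ O₀ x) :
    Module.Finite ↥(chart A₀ x) ↥(chart A₀ (algebraMap K L x)) := by
  haveI : IsFractionRing ↥(chart A₀ x) K := H95.chart_fractionRing O₀ x hS
  haveI : IsIntegrallyClosed ↥(chart A₀ x) := H95.chart_isIntegrallyClosed' x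
  haveI : IsNoetherianRing ↥(chart A₀ x) := H78.chart_isNoetherianRing O₀ x hS
  haveI : CharZero K := charZero_of_injective_algebraMap (FaithfulSMul.algebraMap_injective A₀ K)
  haveI : IsIntegralClosure ↥(chart A₀ (algebraMap K L x)) ↥(chart A₀ x) L :=
    chart_isIntegralClosure x
  exact IsIntegralClosure.finite ↥(chart A₀ x) K L ↥(chart A₀ (algebraMap K L x))

/-- **The chart-level data at a crossing point**, from the descended setup, the two-extension
lemma and the Kronecker congruences. -/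
theorem chartCross_of_dsetup (q : ℕ) (hq : q.Prime) (hqA : Irreducible ((q : ℕ) : A₀))
    (O₀ : ValuationSubring K) (x : K) (hS : DSetup A₀ O₀ x)
    (V₁ V₂ : ValuationSubring L)
    (hc₁ : ∀ v : K, algebraMap K L v ∈ V₁ ↔ v ∈ O₀)
    (hc₂ : ∀ v : K, algebraMap K L v ∈ V₂ ↔ v ∈ O₀)
    (hT : Fermat.Agent.S34.H64.TwoExt O₀ V₁ V₂)
    (β : K →+* L) (σ : K ≃+* K)
    (hσC : ∀ f : K, σ f ∈ chart A₀ x ↔ f ∈ chart A₀ x)
    (hβC : ∀ f ∈ chart A₀ x, β f ∈ chart A₀ (algebraMap K L x))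
    (kron1 : ∀ g ∈ chart A₀ x, β g - algebraMap K L (σ.symm g) ^ q ∈ V₁.nonunits)
    (kron2 : ∀ f ∈ chart A₀ x, algebraMap K L f - β (σ.symm f) ^ q ∈ V₂.nonunits)
    (x₀ : Ideal ↥(chart A₀ (algebraMap K L x))) [hx₀ : x₀.IsPrime]
    (h₁ : ∀ c : ↥(chart A₀ (algebraMap K L x)), (c : L) ∈ V₁.nonunits → c ∈ x₀)
    (h₂ : ∀ c : ↥(chart A₀ (algebraMap K L x)), (c : L) ∈ V₂.nonunits → c ∈ x₀) :
    ChartCross q O₀ V₁ V₂ (chartBeta x β hβC) (chartEquiv x σ hσC)
      (x₀.comap (algebraMap ↥(chart A₀ x) ↥(chart A₀ (algebraMap K L x)))) x₀ := by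
  have hqK0 : algebraMap A₀ K ((q : ℕ) : A₀) ∈ O₀.nonunits := H80.ds_unif_mem_nonunits hqA hS
  have hqK : (q : K) ∈ O₀.nonunits := by
    rwa [map_natCast] at hqK0
  have hqS : algebraMap A₀ ↥(chart A₀ x) ((q : ℕ) : A₀) = (q : ↥(chart A₀ x)) := map_natCast _ q
  have hqC : algebraMap A₀ ↥(chart A₀ (algebraMap K L x)) ((q : ℕ) : A₀) =
      (q : ↥(chart A₀ (algebraMap K L x))) := map_natCast _ q
  have hinf := topIdeal_inf_eq ((q : ℕ) : A₀) hqA O₀ x hS V₁ V₂ hc₁ hc₂ hT
  refine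
    { hq := hq
      injS := Subtype.val_injective
      comap₁ := comap_eq_of_forall O₀ V₁ hc₁
      comap₂ := comap_eq_of_forall O₀ V₂ hc₂
      memS := fun a => H80.ds_chart_le hS _ a.2
      memC₁ := fun c => chart_top_le O₀ x hS V₁ hc₁ _ c.2
      memC₂ := fun c => chart_top_le O₀ x hS V₂ hc₂ _ c.2
      q_mem := hqK
      center := fun a ha => by
        rw [← hqS]
        exact dvd_of_mem_nonunits ((q : ℕ) : A₀) hqA O₀ x hS a ha
      loc := fun v hv => exists_loc ((q : ℕ) : A₀) hqA O₀ x hS v hv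
      inf := fun c hc1 hc2 => by
        have hmem : c ∈ topIdeal O₀ x hS V₁ hc₁ ⊓ topIdeal O₀ x hS V₂ hc₂ := ⟨hc1, hc2⟩
        rw [hinf, Ideal.mem_span_singleton, hqC] at hmem
        exact hmem
      surj := fun c => by
        obtain ⟨a, ha⟩ := exists_sub_chartMap_mem ((q : ℕ) : A₀) hqA O₀ x hS V₁ V₂ hc₁ hT c
        exact ⟨a, ha⟩
      kron1 := fun g => kron1 g g.2
      kron2 := fun f => kron2 f f.2
      q_mem_s := by
        show algebraMap ↥(chart A₀ x) ↥(chart A₀ (algebraMap K L x)) (q : ↥(chart A₀ x)) ∈ x₀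
        rw [map_natCast]
        apply h₁
        show ((q : ↥(chart A₀ (algebraMap K L x)) ) : L) ∈ V₁.nonunits
        have e : (((q : ℕ) : ↥(chart A₀ (algebraMap K L x))) : L) = algebraMap K L (q : K) := by
          rw [map_natCast]
          rfl
        rw [e, algebraMap_mem_nonunits_iff O₀ V₁ (comap_eq_of_forall O₀ V₁ hc₁)]
        exact hqK
      prime_x₀ := hx₀
      comap_x₀ := rfl
      le₁ := h₁
      le₂ := h₂ }

/-- **M6b-concrete (i): the crossing points are regular nodes.**  At every maximal ideal `x₀` of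
the level-`qM'` chart `C₀ = chart A₀ (α x)` (over the unramified base `A₀`) containing both
components `C₀ ∩ m(V₁)`, `C₀ ∩ m(V₂)`, the local ring of `C₀` has maximal ideal `(J, b)` with
`J * b = q`. -/
theorem crossing_regular_of_dsetup (q : ℕ) (hq : q.Prime) (hqA : Irreducible ((q : ℕ) : A₀))
    (O₀ : ValuationSubring K) (x : K) (hS : DSetup A₀ O₀ x)
    (V₁ V₂ : ValuationSubring L)
    (hc₁ : ∀ v : K, algebraMap K L v ∈ V₁ ↔ v ∈ O₀)
    (hc₂ : ∀ v : K, algebraMap K L v ∈ V₂ ↔ v ∈ O₀)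
    (hT : Fermat.Agent.S34.H64.TwoExt O₀ V₁ V₂) (hne : V₁ ≠ V₂)
    (hdeg : Module.finrank K L = q + 1)
    (β : K →+* L) (σ : K ≃+* K)
    (hσA : ∀ a : A₀, ∃ a' : A₀, σ (algebraMap A₀ K a) = algebraMap A₀ K a')
    (hσA' : ∀ a : A₀, ∃ a' : A₀, σ.symm (algebraMap A₀ K a) = algebraMap A₀ K a')
    (hσx : σ x = x)
    (hβC : ∀ f ∈ chart A₀ x, β f ∈ chart A₀ (algebraMap K L x))
    (kron1 : ∀ g ∈ chart A₀ x, β g - algebraMap K L (σ.symm g) ^ q ∈ V₁.nonunits)
    (kron2 : ∀ f ∈ chart A₀ x, algebraMap K L f - β (σ.symm f) ^ q ∈ V₂.nonunits)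
    (hunr : ∀ Q : Ideal ↥(chart A₀ (algebraMap K L x)), Q.IsPrime →
      (q : ↥(chart A₀ (algebraMap K L x))) ∉ Q → ∀ a ∈ Q, ∃ b ∉ Q,
        b * a ∈ Ideal.map (chartMap (A₀ := A₀) (L := L) x) (Q.comap (chartMap (A₀ := A₀) (L := L) x)))
    (x₀ : Ideal ↥(chart A₀ (algebraMap K L x))) [hx₀ : x₀.IsMaximal]
    (h₁ : ∀ c : ↥(chart A₀ (algebraMap K L x)), (c : L) ∈ V₁.nonunits → c ∈ x₀)
    (h₂ : ∀ c : ↥(chart A₀ (algebraMap K L x)), (c : L) ∈ V₂.nonunits → c ∈ x₀) :
    ∃ J b : Localization.AtPrime x₀, J * b = (q : Localization.AtPrime x₀) ∧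
      maximalIdeal (Localization.AtPrime x₀) = Ideal.span {J, b} := by
  have hσC : ∀ f : K, σ f ∈ chart A₀ x ↔ f ∈ chart A₀ x :=
    fun f => Fermat.Agent.S34.H10.chart_equiv_mem_iff σ hσA hσA' x hσx f
  have h := chartCross_of_dsetup q hq hqA O₀ x hS V₁ V₂ hc₁ hc₂ hT β σ hσC hβC kron1 kron2 x₀
    h₁ h₂
  haveI : IsNoetherianRing ↥(chart A₀ x) := H78.chart_isNoetherianRing O₀ x hS
  haveI : Module.Finite ↥(chart A₀ x) ↥(chart A₀ (algebraMap K L x)) :=
    chart_finite_top O₀ x hS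
  haveI : IsDiscreteValuationRing ↥O₀ :=
    Fermat.Agent.S34.H10.isDiscreteValuationRing_of_dsetup hqA hS
  haveI hsmax : (x₀.comap (algebraMap ↥(chart A₀ x) ↥(chart A₀ (algebraMap K L x)))).IsMaximal :=
    Ideal.isMaximal_comap_of_isIntegral_of_isMaximal x₀
  obtain ⟨hprime, t, -, hmax⟩ := H78.chart_nodeBase_natCast q hqA O₀ x hS
    (x₀.comap (algebraMap ↥(chart A₀ x) ↥(chart A₀ (algebraMap K L x)))) h.q_mem_s
  -- the witness: the coordinate
  have hgu : ∃ i, IsUnit ((X - X ^ (q ^ 2) : A₀[X]).coeff i) := by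
    refine ⟨1, ?_⟩
    have hq2 : q ^ 2 ≠ 1 := by
      have := hq.two_le
      intro h1
      have : 4 ≤ q ^ 2 := by nlinarith
      omega
    rw [coeff_sub, coeff_X_one, coeff_X_pow, if_neg (Ne.symm hq2), sub_zero]
    exact isUnit_one
  have hwu : algebraMap ↥(chart A₀ x) K
      ((⟨x, self_mem_chart A₀ x⟩ : ↥(chart A₀ x)) -
        (⟨x, self_mem_chart A₀ x⟩ : ↥(chart A₀ x)) ^ (q ^ 2)) ∉ O₀.nonunits := by
    have e : algebraMap ↥(chart A₀ x) K
        ((⟨x, self_mem_chart A₀ x⟩ : ↥(chart A₀ x)) -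
          (⟨x, self_mem_chart A₀ x⟩ : ↥(chart A₀ x)) ^ (q ^ 2)) =
        aeval x (X - X ^ (q ^ 2) : A₀[X]) := by
      simp only [map_sub, map_pow, aeval_X]
      rfl
    rw [e, not_mem_nonunits_iff]
    exact ⟨H80.ds_aeval_ne_zero_of_unit hS _ hgu, (hS.gauss _ hgu).2⟩
  exact h.regular_atPrime hne hdeg hprime t hmax ⟨x, self_mem_chart A₀ x⟩
    (Subtype.ext hσx) hwu hunr

end Main

end Fermat.Agent.S34.H68
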