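/-
S34 / Program B', M6b-concrete (i), second form (helper68): **the crossing points of the two
components are regular nodes over an unramified base**, in the vocabulary of helper10's (M3),
with the two hypotheses of `crossing_regular_of_dsetup` which fail (or are not available) for the
charts of a Hauptmodul (`q ∈ {2, 3}`: the finite chart contains cusps) weakened to their local
forms at the crossing point `x₀`:

* `hβ` : `β` maps the level-`M'` chart into the LOCAL ring of the level-`qM'` chart at `x₀`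
  (denominators from the level-`M'` chart, units at `x₀`); implied by `β (chart) ⊆ chart`
  (`d = 1`);
* `hunr` : unramifiedness away from `q` only at the primes `Q ≤ x₀`; implied by the form
  `Q.comap ≤ x₀.comap` of helper36 / helper60 (`forall_unramified_of_places_le`).

`crossing_regular_of_dsetup_le` : the local ring of `C₀ = chart A₀ (α x)` at `x₀` is a regular
node: `m = (J, b)`, `J * b = q`.
-/
import Fermat.Agent.S34.H68.CrossNode
import Fermat.Agent.S34.H68.CrossLoc2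

set_option autoImplicit false
set_option linter.style.haveILetI false
set_option linter.unusedSectionVars false

open Polynomial

noncomputable section

namespace Fermat.Agent.S34.H68

open Fermat.Agent.S18 Fermat.Agent.S18.H19 Fermat.Agent.S34.H6 IsLocalRing

section Main2

variable {A₀ : Type*} [CommRing A₀] [IsDomain A₀] [IsDiscreteValuationRing A₀] [CharZero A₀]
  {K L : Type*} [Field K] [Field L] [Algebra A₀ K] [Algebra A₀ L] [Algebra K L]
  [IsScalarTower A₀ K L] [FaithfulSMul A₀ K] [FiniteDimensional K L]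

attribute [local instance] chartAlgTop chartTower

/-- **The chart-level data at a crossing point, local form.** -/
theorem chartCrossL_of_dsetup (q : ℕ) (hq : q.Prime) (hqA : Irreducible ((q : ℕ) : A₀))
    (O₀ : ValuationSubring K) (x : K) (hS : DSetup A₀ O₀ x)
    (V₁ V₂ : ValuationSubring L)
    (hc₁ : ∀ v : K, algebraMap K L v ∈ V₁ ↔ v ∈ O₀)
    (hc₂ : ∀ v : K, algebraMap K L v ∈ V₂ ↔ v ∈ O₀)
    (hT : Fermat.Agent.S34.H64.TwoExt O₀ V₁ V₂)
    (β : K →+* L) (σ : K ≃+* K)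
    (hσC : ∀ f : K, σ f ∈ chart A₀ x ↔ f ∈ chart A₀ x)
    (x₀ : Ideal ↥(chart A₀ (algebraMap K L x))) [hx₀ : x₀.IsPrime]
    (hβ : ∀ g ∈ chart A₀ x, ∃ (c : ↥(chart A₀ (algebraMap K L x))) (d : ↥(chart A₀ x)),
      chartMap (A₀ := A₀) (L := L) x d ∉ x₀ ∧ β g * algebraMap K L (d : K) = (c : L))
    (kron1 : ∀ g ∈ chart A₀ x, β g - algebraMap K L (σ.symm g) ^ q ∈ V₁.nonunits)
    (kron2 : ∀ f ∈ chart A₀ x, algebraMap K L f - β (σ.symm f) ^ q ∈ V₂.nonunits)
    (h₁ : ∀ c : ↥(chart A₀ (algebraMap K L x)), (c : L) ∈ V₁.nonunits → c ∈ x₀)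
    (h₂ : ∀ c : ↥(chart A₀ (algebraMap K L x)), (c : L) ∈ V₂.nonunits → c ∈ x₀) :
    ChartCrossL q O₀ V₁ V₂ (β.comp (algebraMap ↥(chart A₀ x) K)) (chartEquiv x σ hσC)
      (x₀.comap (algebraMap ↥(chart A₀ x) ↥(chart A₀ (algebraMap K L x)))) x₀ := by
  have hqK0 : algebraMap A₀ K ((q : ℕ) : A₀) ∈ O₀.nonunits := H80.ds_unif_mem_nonunits hqA hS
  have hqK : (q : K) ∈ O₀.nonunits := by
    rwa [map_natCast] at hqK0
  have hqS : algebraMap A₀ ↥(chart A₀ x) ((q : ℕ) : A₀) = (q : ↥(chart A₀ x)) := map_natCast _ q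
  have hqC : algebraMap A₀ ↥(chart A₀ (algebraMap K L x)) ((q : ℕ) : A₀) =
      (q : ↥(chart A₀ (algebraMap K L x))) := map_natCast _ q
  have hinf := topIdeal_inf_eq ((q : ℕ) : A₀) hqA O₀ x hS V₁ V₂ hc₁ hc₂ hT
  refine
    { hq := hq
      injS := Subtype.val_injective
      comap₁ := comap_eq_of_forall O₀ V₁ hc₁
      comap₂ := comap_eq_of_forall O₀ V₂ hc₂
      memS := fun a => H80.ds_chart_le hS _ a.2
      memC₁ := fun c => chart_top_le O₀ x hS V₁ hc₁ _ c.2
      memC₂ := fun c => chart_top_le O₀ x hS V₂ hc₂ _ c.2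
      q_mem := hqK
      center := fun a ha => by
        rw [← hqS]
        exact dvd_of_mem_nonunits ((q : ℕ) : A₀) hqA O₀ x hS a ha
      loc := fun v hv => exists_loc ((q : ℕ) : A₀) hqA O₀ x hS v hv
      inf := fun c hc1 hc2 => by
        have hmem : c ∈ topIdeal O₀ x hS V₁ hc₁ ⊓ topIdeal O₀ x hS V₂ hc₂ := ⟨hc1, hc2⟩
        rw [hinf, Ideal.mem_span_singleton, hqC] at hmem
        exact hmem
      surj := fun c => by
        obtain ⟨a, ha⟩ := exists_sub_chartMap_mem ((q : ℕ) : A₀) hqA O₀ x hS V₁ V₂ hc₁ hT c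
        exact ⟨a, ha⟩
      injC := Subtype.val_injective
      beta_mem := fun g => by
        obtain ⟨c, d, hd, hcd⟩ := hβ g g.2
        exact ⟨c, d, hd, hcd⟩
      kron1 := fun g => kron1 g g.2
      kron2 := fun f => kron2 f f.2
      q_mem_s := by
        show algebraMap ↥(chart A₀ x) ↥(chart A₀ (algebraMap K L x)) (q : ↥(chart A₀ x)) ∈ x₀
        rw [map_natCast]
        apply h₁
        show ((q : ↥(chart A₀ (algebraMap K L x)) ) : L) ∈ V₁.nonunits
        have e : (((q : ℕ) : ↥(chart A₀ (algebraMap K L x))) : L) = algebraMap K L (q : K) := by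
          rw [map_natCast]
          rfl
        rw [e, algebraMap_mem_nonunits_iff O₀ V₁ (comap_eq_of_forall O₀ V₁ hc₁)]
        exact hqK
      prime_x₀ := hx₀
      comap_x₀ := rfl
      le₁ := h₁
      le₂ := h₂ }

/-- **M6b-concrete (i), local form: the crossing points are regular nodes.**  At every maximal
ideal `x₀` of the level-`qM'` chart `C₀ = chart A₀ (α x)` (over the unramified base `A₀`)
containing both components `C₀ ∩ m(V₁)`, `C₀ ∩ m(V₂)`, such that `β` maps the level-`M'` chart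
into the local ring of `C₀` at `x₀` and the primes `Q ≤ x₀` of `C₀` not containing `q` are
unramified over the level-`M'` chart, the local ring of `C₀` at `x₀` has maximal ideal `(J, b)`
with `J * b = q`. -/
theorem crossing_regular_of_dsetup_le (q : ℕ) (hq : q.Prime) (hqA : Irreducible ((q : ℕ) : A₀))
    (O₀ : ValuationSubring K) (x : K) (hS : DSetup A₀ O₀ x)
    (V₁ V₂ : ValuationSubring L)
    (hc₁ : ∀ v : K, algebraMap K L v ∈ V₁ ↔ v ∈ O₀)
    (hc₂ : ∀ v : K, algebraMap K L v ∈ V₂ ↔ v ∈ O₀)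
    (hT : Fermat.Agent.S34.H64.TwoExt O₀ V₁ V₂) (hne : V₁ ≠ V₂)
    (hdeg : Module.finrank K L = q + 1)
    (β : K →+* L) (σ : K ≃+* K)
    (hσA : ∀ a : A₀, ∃ a' : A₀, σ (algebraMap A₀ K a) = algebraMap A₀ K a')
    (hσA' : ∀ a : A₀, ∃ a' : A₀, σ.symm (algebraMap A₀ K a) = algebraMap A₀ K a')
    (hσx : σ x = x)
    (kron1 : ∀ g ∈ chart A₀ x, β g - algebraMap K L (σ.symm g) ^ q ∈ V₁.nonunits)
    (kron2 : ∀ f ∈ chart A₀ x, algebraMap K L f - β (σ.symm f) ^ q ∈ V₂.nonunits)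
    (x₀ : Ideal ↥(chart A₀ (algebraMap K L x))) [hx₀ : x₀.IsMaximal]
    (hβ : ∀ g ∈ chart A₀ x, ∃ (c : ↥(chart A₀ (algebraMap K L x))) (d : ↥(chart A₀ x)),
      chartMap (A₀ := A₀) (L := L) x d ∉ x₀ ∧ β g * algebraMap K L (d : K) = (c : L))
    (hunr : ∀ Q : Ideal ↥(chart A₀ (algebraMap K L x)), Q.IsPrime →
      (q : ↥(chart A₀ (algebraMap K L x))) ∉ Q → Q ≤ x₀ → ∀ a ∈ Q, ∃ b ∉ Q,
        b * a ∈ Ideal.map (chartMap (A₀ := A₀) (L := L) x) (Q.comap (chartMap (A₀ := A₀) (L := L) x)))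
    (h₁ : ∀ c : ↥(chart A₀ (algebraMap K L x)), (c : L) ∈ V₁.nonunits → c ∈ x₀)
    (h₂ : ∀ c : ↥(chart A₀ (algebraMap K L x)), (c : L) ∈ V₂.nonunits → c ∈ x₀) :
    ∃ J b : Localization.AtPrime x₀, J * b = (q : Localization.AtPrime x₀) ∧
      maximalIdeal (Localization.AtPrime x₀) = Ideal.span {J, b} := by
  have hσC : ∀ f : K, σ f ∈ chart A₀ x ↔ f ∈ chart A₀ x :=
    fun f => Fermat.Agent.S34.H10.chart_equiv_mem_iff σ hσA hσA' x hσx f
  have h := chartCrossL_of_dsetup q hq hqA O₀ x hS V₁ V₂ hc₁ hc₂ hT β σ hσC x₀ hβ kron1 kron2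
    h₁ h₂
  haveI : IsNoetherianRing ↥(chart A₀ x) := H78.chart_isNoetherianRing O₀ x hS
  haveI : Module.Finite ↥(chart A₀ x) ↥(chart A₀ (algebraMap K L x)) :=
    chart_finite_top O₀ x hS
  haveI : IsDiscreteValuationRing ↥O₀ :=
    Fermat.Agent.S34.H10.isDiscreteValuationRing_of_dsetup hqA hS
  haveI hsmax : (x₀.comap (algebraMap ↥(chart A₀ x) ↥(chart A₀ (algebraMap K L x)))).IsMaximal :=
    Ideal.isMaximal_comap_of_isIntegral_of_isMaximal x₀
  obtain ⟨hprime, t, -, hmax⟩ := H78.chart_nodeBase_natCast q hqA O₀ x hS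
    (x₀.comap (algebraMap ↥(chart A₀ x) ↥(chart A₀ (algebraMap K L x)))) h.q_mem_s
  -- the witness: the coordinate
  have hgu : ∃ i, IsUnit ((X - X ^ (q ^ 2) : A₀[X]).coeff i) := by
    refine ⟨1, ?_⟩
    have hq2 : q ^ 2 ≠ 1 := by
      have := hq.two_le
      intro h1
      have : 4 ≤ q ^ 2 := by nlinarith
      omega
    rw [coeff_sub, coeff_X_one, coeff_X_pow, if_neg (Ne.symm hq2), sub_zero]
    exact isUnit_one
  have hwu : algebraMap ↥(chart A₀ x) K
      ((⟨x, self_mem_chart A₀ x⟩ : ↥(chart A₀ x)) -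
        (⟨x, self_mem_chart A₀ x⟩ : ↥(chart A₀ x)) ^ (q ^ 2)) ∉ O₀.nonunits := by
    have e : algebraMap ↥(chart A₀ x) K
        ((⟨x, self_mem_chart A₀ x⟩ : ↥(chart A₀ x)) -
          (⟨x, self_mem_chart A₀ x⟩ : ↥(chart A₀ x)) ^ (q ^ 2)) =
        aeval x (X - X ^ (q ^ 2) : A₀[X]) := by
      simp only [map_sub, map_pow, aeval_X]
      rfl
    rw [e, not_mem_nonunits_iff]
    exact ⟨H80.ds_aeval_ne_zero_of_unit hS _ hgu, (hS.gauss _ hgu).2⟩
  exact h.regular_atPrime hne hdeg hprime t hmax ⟨x, self_mem_chart A₀ x⟩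
    (Subtype.ext hσx) hwu hunr

/-- The restricted hypothesis `hunr` of `crossing_regular_of_dsetup_le` follows from the form
"all primes `Q` whose contraction to the level-`M'` chart lies in the point below `x₀`". -/
theorem hunr_le_of_comap_le (q : ℕ) (x : K)
    (x₀ : Ideal ↥(chart A₀ (algebraMap K L x)))
    (hunr : ∀ Q : Ideal ↥(chart A₀ (algebraMap K L x)), Q.IsPrime →
      (q : ↥(chart A₀ (algebraMap K L x))) ∉ Q →
      Q.comap (chartMap (A₀ := A₀) (L := L) x) ≤ x₀.comap (chartMap (A₀ := A₀) (L := L) x) →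
      ∀ a ∈ Q, ∃ b ∉ Q,
        b * a ∈ Ideal.map (chartMap (A₀ := A₀) (L := L) x) (Q.comap (chartMap (A₀ := A₀) (L := L) x))) :
    ∀ Q : Ideal ↥(chart A₀ (algebraMap K L x)), Q.IsPrime →
      (q : ↥(chart A₀ (algebraMap K L x))) ∉ Q → Q ≤ x₀ → ∀ a ∈ Q, ∃ b ∉ Q,
        b * a ∈ Ideal.map (chartMap (A₀ := A₀) (L := L) x) (Q.comap (chartMap (A₀ := A₀) (L := L) x)) :=
  fun Q hQ hqQ hle => hunr Q hQ hqQ (Ideal.comap_mono hle)

/-- The local hypothesis `hβ` of `crossing_regular_of_dsetup_le` follows from the global one. -/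
theorem hbeta_local_of_global (x : K) (β : K →+* L)
    (hβC : ∀ f ∈ chart A₀ x, β f ∈ chart A₀ (algebraMap K L x))
    (x₀ : Ideal ↥(chart A₀ (algebraMap K L x))) [hx₀ : x₀.IsPrime] :
    ∀ g ∈ chart A₀ x, ∃ (c : ↥(chart A₀ (algebraMap K L x))) (d : ↥(chart A₀ x)),
      chartMap (A₀ := A₀) (L := L) x d ∉ x₀ ∧ β g * algebraMap K L (d : K) = (c : L) := by
  intro g hg
  refine ⟨⟨β g, hβC g hg⟩, 1, ?_, ?_⟩
  · rw [map_one]
    exact fun h1 => hx₀.ne_top ((Ideal.eq_top_iff_one _).mpr h1)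
  · show β g * algebraMap K L ((1 : ↥(chart A₀ x)) : K) = β g
    rw [OneMemClass.coe_one, map_one, mul_one]

end Main2

end Fermat.Agent.S34.H68
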