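/-
S34 / Program B', M6b-concrete, piece X6 (helper68): the regular node at the crossing points on
the `E`-forms `K = ratForm M E`, `L = ratForm (M * q) E` (any intermediate field `E`, in the
application the inertia field), in the concrete vocabulary of helper61's `Concrete3`.

* `chart_top_isFractionRing`, `chart_top_isRadical` (abstract, M3 vocabulary): the chart
  `chart A₀ (α x)` of the level above has fraction field `L` and reduced special fibre;
* `chart_facts_ratForm` : the three hypotheses of helper46's `H46.hgen_ratForm_of_regular` on the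
  chart over `E`;
* `crossing_regular_ratForm` : `crossing_regular_of_dsetup_le` on the `E`-forms: the V-block
  (`hc₁ hc₂ hT hne hdeg`, from helper61's `Concrete3` and helper59's `FDeg`) and the instances
  are discharged; the remaining hypotheses are the descended setup of the base function, the
  twist `σ` with the two Kronecker congruences, `β`-integrality at `x₀` and unramifiedness at the
  primes through `x₀`.
-/
import Fermat.Agent.S34.H68.CrossNode2
import Fermat.Agent.S34.H61.Concrete3
import Fermat.Agent.S34.H59.FDeg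

set_option autoImplicit false
set_option linter.style.haveILetI false
set_option linter.unusedSectionVars false

open Polynomial IntermediateField ModularCurve AlgebraicCurve

noncomputable section

namespace Fermat.Agent.S34.H68

open Fermat.Agent.S18 Fermat.Agent.S18.H74 Fermat.Agent.S18.H19 Fermat.Agent.S34.H19
  Fermat.Agent.S34.H61 Fermat.Agent.S34.H64 Fermat.Agent.S34.H6 IsLocalRing

section AbsFacts

variable {A₀ : Type*} [CommRing A₀] [IsDomain A₀] [IsDiscreteValuationRing A₀] [CharZero A₀]
  {K L : Type*} [Field K] [Field L] [Algebra A₀ K] [Algebra A₀ L] [Algebra K L]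
  [IsScalarTower A₀ K L] [FaithfulSMul A₀ K] [FiniteDimensional K L]

attribute [local instance] chartAlgTop chartTower

/-- The chart of the level above has fraction field `L`. -/
theorem chart_top_isFractionRing (O₀ : ValuationSubring K) (x : K) (hS : DSetup A₀ O₀ x) :
    IsFractionRing ↥(chart A₀ (algebraMap K L x)) L := by
  haveI : IsFractionRing ↥(chart A₀ x) K := H95.chart_fractionRing O₀ x hS
  haveI : IsIntegralClosure ↥(chart A₀ (algebraMap K L x)) ↥(chart A₀ x) L :=
    chart_isIntegralClosure x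
  exact IsIntegralClosure.isFractionRing_of_finite_extension ↥(chart A₀ x) K L
    ↥(chart A₀ (algebraMap K L x))

/-- The special fibre of the chart of the level above is reduced. -/
theorem chart_top_isRadical (q : ℕ) (hqA : Irreducible ((q : ℕ) : A₀))
    (O₀ : ValuationSubring K) (x : K) (hS : DSetup A₀ O₀ x) (V₁ V₂ : ValuationSubring L)
    (hc₁ : ∀ v : K, algebraMap K L v ∈ V₁ ↔ v ∈ O₀)
    (hc₂ : ∀ v : K, algebraMap K L v ∈ V₂ ↔ v ∈ O₀)
    (hT : Fermat.Agent.S34.H64.TwoExt O₀ V₁ V₂) :
    (Ideal.span {((q : ℕ) : ↥(chart A₀ (algebraMap K L x)))}).IsRadical := by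
  have hinf := topIdeal_inf_eq ((q : ℕ) : A₀) hqA O₀ x hS V₁ V₂ hc₁ hc₂ hT
  have hqC : algebraMap A₀ ↥(chart A₀ (algebraMap K L x)) ((q : ℕ) : A₀) =
      (q : ↥(chart A₀ (algebraMap K L x))) := map_natCast _ q
  rw [← hqC, ← hinf]
  exact (topIdeal_isPrime O₀ x hS V₁ hc₁).isRadical.inf (topIdeal_isPrime O₀ x hS V₂ hc₂).isRadical

end AbsFacts

section Rat

variable {M q : ℕ} [NeZero M] [hqF : Fact q.Prime] {hqM : ¬ q ∣ M} {A : ValuationSubring Kb}
  {hA : A.LiesOverPrime q} {O₁ : ValuationSubring (FN (M * q))}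
  {w : FN (M * q) ≃+* FN (M * q)}

/-- **The three chart hypotheses of `H46.hgen_ratForm_of_regular` over `E`**: the chart of
`j = α x` over `A ∩ E` is integrally closed, has fraction field `ratForm (M * q) E`, and its
special fibre is reduced. -/
theorem chart_facts_ratForm (hTG : TwoGauss M q hqM A hA O₁ w) (E : IntermediateField ℚ Kb)
    [IsDiscreteValuationRing ↥(A.comap (algebraMap E Kb))]
    (hqA : Irreducible ((q : ℕ) : ↥(A.comap (algebraMap E Kb)))) :
    haveI : NeZero q := ⟨hqF.out.ne_zero⟩
    letI := algComap (A.comap (algebraMap E Kb)) (ratForm M E)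
    letI := algComap (A.comap (algebraMap E Kb)) (ratForm (M * q) E)
    ∀ (x : ↥(ratForm M E)),
      DSetup ↥(A.comap (algebraMap E Kb)) (gaussForm M hqM A hA E) x →
      IsIntegrallyClosed ↥(chart ↥(A.comap (algebraMap E Kb)) (alphaForm M q E x)) ∧
      IsFractionRing ↥(chart ↥(A.comap (algebraMap E Kb)) (alphaForm M q E x))
        ↥(ratForm (M * q) E) ∧
      (Ideal.span {((q : ℕ) :
        ↥(chart ↥(A.comap (algebraMap E Kb)) (alphaForm M q E x)))}).IsRadical := by
  haveI : NeZero q := ⟨hqF.out.ne_zero⟩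
  letI := algComap (A.comap (algebraMap E Kb)) (ratForm M E)
  letI := algComap (A.comap (algebraMap E Kb)) (ratForm (M * q) E)
  letI := algAlpha M q E
  intro x hS
  haveI : IsScalarTower ↥(A.comap (algebraMap E Kb)) ↥(ratForm M E) ↥(ratForm (M * q) E) :=
    isScalarTower_algAlpha M q E A
  haveI : FaithfulSMul ↥(A.comap (algebraMap E Kb)) ↥(ratForm M E) :=
    H78.faithfulSMul_comap A E (ratForm M E)
  haveI : FaithfulSMul ↥(A.comap (algebraMap E Kb)) ↥(ratForm (M * q) E) :=
    H78.faithfulSMul_comap A E (ratForm (M * q) E)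
  have hdeg : Module.finrank ↥(ratForm M E) ↥(ratForm (M * q) E) = q + 1 :=
    H59.finrank_alphaForm M q E hqF.out hqM
  haveI : FiniteDimensional ↥(ratForm M E) ↥(ratForm (M * q) E) :=
    finite_of_finrank_eq_succ hdeg
  have hdvr : IsDiscreteValuationRing ↥(gaussForm M hqM A hA E) :=
    H10.isDiscreteValuationRing_of_dsetup hqA hS
  have hT : H64.TwoExt (gaussForm M hqM A hA E) (gaussOne M q O₁ E) (gaussTwoForm M q O₁ w E) :=
    twoExt_ratForm hTG E hdvr hdeg
  refine ⟨H95.chart_isIntegrallyClosed' _, ?_, ?_⟩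
  · exact chart_top_isFractionRing (gaussForm M hqM A hA E) x hS
  · exact chart_top_isRadical q hqA (gaussForm M hqM A hA E) x hS (gaussOne M q O₁ E)
      (gaussTwoForm M q O₁ w E) (fun v => alphaForm_mem_comap_iff hTG E v)
      (fun v => alphaForm_mem_comap_gaussTwo_iff hTG E v) hT

/-- **M6b-concrete on the `E`-forms: the crossing points are regular nodes.**  `E` any
intermediate field with `A ∩ E` a discrete valuation ring in which `q` is a uniformiser (the
inertia field), `x` a base function of level `M` with its descended setup over `E`, `σ` a twist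
of `ratForm M E` fixing `x` with the two Kronecker congruences on the chart of `x`.  At a maximal
ideal `x₀` of the chart of `j = α x` over `A ∩ E` lying on both components, with `β` integral at
`x₀` and the primes through `x₀` unramified over the chart of `x`: `m = (J, b)`, `J * b = q` in
the local ring of the chart at `x₀`. -/
theorem crossing_regular_ratForm (hTG : TwoGauss M q hqM A hA O₁ w) (E : IntermediateField ℚ Kb)
    [IsDiscreteValuationRing ↥(A.comap (algebraMap E Kb))]
    (hqA : Irreducible ((q : ℕ) : ↥(A.comap (algebraMap E Kb)))) :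
    haveI : NeZero q := ⟨hqF.out.ne_zero⟩
    letI := algComap (A.comap (algebraMap E Kb)) (ratForm M E)
    letI := algComap (A.comap (algebraMap E Kb)) (ratForm (M * q) E)
    letI := algAlpha M q E
    haveI : IsScalarTower ↥(A.comap (algebraMap E Kb)) ↥(ratForm M E) ↥(ratForm (M * q) E) :=
      isScalarTower_algAlpha M q E A
    ∀ (x : ↥(ratForm M E)),
      DSetup ↥(A.comap (algebraMap E Kb)) (gaussForm M hqM A hA E) x →
    ∀ (σ : ↥(ratForm M E) ≃+* ↥(ratForm M E)),
      (∀ a : ↥(A.comap (algebraMap E Kb)), ∃ a' : ↥(A.comap (algebraMap E Kb)),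
        σ (algebraMap ↥(A.comap (algebraMap E Kb)) ↥(ratForm M E) a) =
          algebraMap ↥(A.comap (algebraMap E Kb)) ↥(ratForm M E) a') →
      (∀ a : ↥(A.comap (algebraMap E Kb)), ∃ a' : ↥(A.comap (algebraMap E Kb)),
        σ.symm (algebraMap ↥(A.comap (algebraMap E Kb)) ↥(ratForm M E) a) =
          algebraMap ↥(A.comap (algebraMap E Kb)) ↥(ratForm M E) a') →
      σ x = x →
      (∀ g ∈ chart ↥(A.comap (algebraMap E Kb)) x,
        betaForm M q E g - alphaForm M q E (σ.symm g) ^ q ∈ (gaussOne M q O₁ E).nonunits) →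
      (∀ f ∈ chart ↥(A.comap (algebraMap E Kb)) x,
        alphaForm M q E f - betaForm M q E (σ.symm f) ^ q ∈
          (gaussTwoForm M q O₁ w E).nonunits) →
    ∀ (x₀ : Ideal ↥(chart ↥(A.comap (algebraMap E Kb)) (alphaForm M q E x))) [x₀.IsMaximal],
      (∀ g ∈ chart ↥(A.comap (algebraMap E Kb)) x,
        ∃ (c : ↥(chart ↥(A.comap (algebraMap E Kb)) (alphaForm M q E x)))
          (d : ↥(chart ↥(A.comap (algebraMap E Kb)) x)),
          chartMap (A₀ := ↥(A.comap (algebraMap E Kb))) (L := ↥(ratForm (M * q) E)) x d ∉ x₀ ∧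
            betaForm M q E g * alphaForm M q E (d : ↥(ratForm M E)) =
              (c : ↥(ratForm (M * q) E))) →
      (∀ Q : Ideal ↥(chart ↥(A.comap (algebraMap E Kb)) (alphaForm M q E x)), Q.IsPrime →
        ((q : ℕ) : ↥(chart ↥(A.comap (algebraMap E Kb)) (alphaForm M q E x))) ∉ Q → Q ≤ x₀ →
        ∀ a ∈ Q, ∃ b ∉ Q, b * a ∈ Ideal.map
          (chartMap (A₀ := ↥(A.comap (algebraMap E Kb))) (L := ↥(ratForm (M * q) E)) x)
          (Q.comap
            (chartMap (A₀ := ↥(A.comap (algebraMap E Kb))) (L := ↥(ratForm (M * q) E)) x))) →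
      (∀ c : ↥(chart ↥(A.comap (algebraMap E Kb)) (alphaForm M q E x)),
        (c : ↥(ratForm (M * q) E)) ∈ (gaussOne M q O₁ E).nonunits → c ∈ x₀) →
      (∀ c : ↥(chart ↥(A.comap (algebraMap E Kb)) (alphaForm M q E x)),
        (c : ↥(ratForm (M * q) E)) ∈ (gaussTwoForm M q O₁ w E).nonunits → c ∈ x₀) →
      ∃ J b : Localization.AtPrime x₀, J * b = ((q : ℕ) : Localization.AtPrime x₀) ∧
        maximalIdeal (Localization.AtPrime x₀) = Ideal.span {J, b} := by
  haveI : NeZero q := ⟨hqF.out.ne_zero⟩
  letI := algComap (A.comap (algebraMap E Kb)) (ratForm M E)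
  letI := algComap (A.comap (algebraMap E Kb)) (ratForm (M * q) E)
  letI := algAlpha M q E
  intro x hS σ hσA hσA' hσx kron1 kron2 x₀ _ hβ hunr h₁ h₂
  haveI : IsScalarTower ↥(A.comap (algebraMap E Kb)) ↥(ratForm M E) ↥(ratForm (M * q) E) :=
    isScalarTower_algAlpha M q E A
  haveI : FaithfulSMul ↥(A.comap (algebraMap E Kb)) ↥(ratForm M E) :=
    H78.faithfulSMul_comap A E (ratForm M E)
  have hdeg : Module.finrank ↥(ratForm M E) ↥(ratForm (M * q) E) = q + 1 :=
    H59.finrank_alphaForm M q E hqF.out hqM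
  haveI : FiniteDimensional ↥(ratForm M E) ↥(ratForm (M * q) E) :=
    finite_of_finrank_eq_succ hdeg
  have hdvr : IsDiscreteValuationRing ↥(gaussForm M hqM A hA E) :=
    H10.isDiscreteValuationRing_of_dsetup hqA hS
  have hT : H64.TwoExt (gaussForm M hqM A hA E) (gaussOne M q O₁ E) (gaussTwoForm M q O₁ w E) :=
    twoExt_ratForm hTG E hdvr hdeg
  exact crossing_regular_of_dsetup_le q hqF.out hqA (gaussForm M hqM A hA E) x hS
    (gaussOne M q O₁ E) (gaussTwoForm M q O₁ w E) (fun v => alphaForm_mem_comap_iff hTG E v)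
    (fun v => alphaForm_mem_comap_gaussTwo_iff hTG E v) hT (gaussOne_ne_gaussTwoForm hTG E) hdeg
    (betaForm M q E) σ hσA hσA' hσx kron1 kron2 x₀ hβ hunr h₁ h₂

end Rat

end Fermat.Agent.S34.H68
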