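/-
S34 / Program B', M6b (E1) (helper68): **the regular node over the inertia field**
(`H77.RegularCrossLeaf`), assembled from `crossing_regular_ratForm`.

* `BetaSupplyAt`, `UnrSupplyAt` : the two suppliers which depend on the base function `x`
  (`β (chart x) ⊆ chart (α x)`; unramifiedness away from `q` at the primes through a crossing
  point);
* `regularCross_of_supply` : the regular node at every crossing point of the chart over the
  inertia field, from `H30.IsBase` and the two suppliers (everything else is discharged: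
  `q` a uniformiser of `A ∩ E` (helper92), the Frobenius twist and the Kronecker congruences
  (helper34), the V-block (helper61, helper59));
* `betaSupplyAt_jtop`, `unrSupplyAt_jtop` : the suppliers for `x₀ = j(q^M)` (helper64, helper59);
* `HauptBeta`, `HauptUnr` : the suppliers for the two Hauptmoduln (`q ∈ {2, 3}`), as Props;
* `regularCrossLeaf_of` : `HauptBeta → HauptUnr → H77.RegularCrossLeaf`.
-/
import Fermat.Agent.S34.H68.CrossRat
import Fermat.Agent.S34.H77.CrossDefs
import Fermat.Agent.S34.H34.FrobSupply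
import Fermat.Agent.S34.H64.ChartJ
import Fermat.Agent.S34.H59.HUnrCross
import Fermat.Agent.S34.H92.BaseAdapt

set_option autoImplicit false
set_option linter.style.haveILetI false
set_option linter.unusedSectionVars false

open Polynomial IntermediateField ModularCurve AlgebraicCurve

noncomputable section

namespace Fermat.Agent.S34.H68

open Fermat.Agent.S18 Fermat.Agent.S18.H74 Fermat.Agent.S18.H19 Fermat.Agent.S34.H19
  Fermat.Agent.S34.H61 Fermat.Agent.S34.H64 Fermat.Agent.S34.H6 Fermat.Agent.S34.H30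
  Fermat.Agent.S34.H77 Fermat.Agent.S34.H92 IsLocalRing

section Supply

/-- **Supplier (β)**: `β` maps the chart of the base function `x` over `A ∩ E` into the chart of
`α x`. -/
def BetaSupplyAt (M q : ℕ) [NeZero M] [hqF : Fact q.Prime] (A : ValuationSubring Kb)
    (E : IntermediateField ℚ Kb) (x : ↥(ratForm M E)) : Prop :=
  haveI : NeZero q := ⟨hqF.out.ne_zero⟩
  letI := algComap (A.comap (algebraMap E Kb)) (ratForm M E)
  letI := algComap (A.comap (algebraMap E Kb)) (ratForm (M * q) E)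
  ∀ g ∈ chart ↥(A.comap (algebraMap E Kb)) x,
    betaForm M q E g ∈ chart ↥(A.comap (algebraMap E Kb)) (alphaForm M q E x)

/-- **Supplier (U)**: at a maximal ideal `y` of the chart of `α x` over `A ∩ E` lying on both
components, the primes `Q ≤ y` not containing `q` are unramified over the chart of `x`. -/
def UnrSupplyAt (M q : ℕ) [NeZero M] [hqF : Fact q.Prime] (A : ValuationSubring Kb)
    (O₁ : ValuationSubring (FN (M * q))) (w : FN (M * q) ≃+* FN (M * q))
    (E : IntermediateField ℚ Kb) (x : ↥(ratForm M E)) : Prop :=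
  haveI : NeZero q := ⟨hqF.out.ne_zero⟩
  letI := algComap (A.comap (algebraMap E Kb)) (ratForm M E)
  letI := algComap (A.comap (algebraMap E Kb)) (ratForm (M * q) E)
  letI := algAlpha M q E
  haveI : IsScalarTower ↥(A.comap (algebraMap E Kb)) ↥(ratForm M E) ↥(ratForm (M * q) E) :=
    isScalarTower_algAlpha M q E A
  ∀ (y : Ideal ↥(chart ↥(A.comap (algebraMap E Kb)) (alphaForm M q E x))), y.IsMaximal →
    (∀ c : ↥(chart ↥(A.comap (algebraMap E Kb)) (alphaForm M q E x)),
      (c : ↥(ratForm (M * q) E)) ∈ (gaussOne M q O₁ E).nonunits → c ∈ y) →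
    (∀ c : ↥(chart ↥(A.comap (algebraMap E Kb)) (alphaForm M q E x)),
      (c : ↥(ratForm (M * q) E)) ∈ (gaussTwoForm M q O₁ w E).nonunits → c ∈ y) →
    ∀ Q : Ideal ↥(chart ↥(A.comap (algebraMap E Kb)) (alphaForm M q E x)), Q.IsPrime →
      ((q : ℕ) : ↥(chart ↥(A.comap (algebraMap E Kb)) (alphaForm M q E x))) ∉ Q → Q ≤ y →
      ∀ a ∈ Q, ∃ b ∉ Q, b * a ∈ Ideal.map
        (chartMap (A₀ := ↥(A.comap (algebraMap E Kb))) (L := ↥(ratForm (M * q) E)) x)
        (Q.comap
          (chartMap (A₀ := ↥(A.comap (algebraMap E Kb))) (L := ↥(ratForm (M * q) E)) x))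

end Supply

section Reg

variable {M q : ℕ} [NeZero M] [hqF : Fact q.Prime] {hqM : ¬ q ∣ M} {A : ValuationSubring Kb}
  {hA : A.LiesOverPrime q} {O₁ : ValuationSubring (FN (M * q))}
  {w : FN (M * q) ≃+* FN (M * q)}

/-- **The regular node at the crossing points over the inertia field**, from the two suppliers
for the base function. -/
theorem regularCross_of_supply (hAtop : A ≠ ⊤) (hTG : TwoGauss M q hqM A hA O₁ w) (x₀ : FN M)
    (hx₀ : IsBase M q hqM A hA x₀) (K₀ : IntermediateField ℚ Kb) [FiniteDimensional ℚ K₀]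
    [Normal ℚ K₀] (hx : x₀ ∈ ratForm M (inertiaField A K₀))
    (hβ : BetaSupplyAt M q A (inertiaField A K₀) ⟨x₀, hx⟩)
    (hU : UnrSupplyAt M q A O₁ w (inertiaField A K₀) ⟨x₀, hx⟩) :
    haveI : NeZero q := ⟨hqF.out.ne_zero⟩
    letI := algComap (A.comap (algebraMap (inertiaField A K₀) Kb))
      (ratForm (M * q) (inertiaField A K₀))
    ∀ (y : Ideal ↥(chart ↥(A.comap (algebraMap (inertiaField A K₀) Kb))
        (alphaForm M q (inertiaField A K₀) ⟨x₀, hx⟩))) [y.IsPrime], y.IsMaximal →
      (∀ c : ↥(chart ↥(A.comap (algebraMap (inertiaField A K₀) Kb))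
          (alphaForm M q (inertiaField A K₀) ⟨x₀, hx⟩)),
        (c : ↥(ratForm (M * q) (inertiaField A K₀))) ∈
          (O₁.comap (algebraMap ↥(ratForm (M * q) (inertiaField A K₀))
            (FN (M * q)))).nonunits → c ∈ y) →
      (∀ c : ↥(chart ↥(A.comap (algebraMap (inertiaField A K₀) Kb))
          (alphaForm M q (inertiaField A K₀) ⟨x₀, hx⟩)),
        (c : ↥(ratForm (M * q) (inertiaField A K₀))) ∈
          ((gaussTwo M q O₁ w).comap (algebraMap ↥(ratForm (M * q) (inertiaField A K₀))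
            (FN (M * q)))).nonunits → c ∈ y) →
      ∃ J b : Localization.AtPrime y, J * b = ((q : ℕ) : Localization.AtPrime y) ∧
        maximalIdeal (Localization.AtPrime y) = Ideal.span {J, b} := by
  haveI : NeZero q := ⟨hqF.out.ne_zero⟩
  letI := algComap (A.comap (algebraMap (inertiaField A K₀) Kb)) (ratForm M (inertiaField A K₀))
  letI := algComap (A.comap (algebraMap (inertiaField A K₀) Kb))
    (ratForm (M * q) (inertiaField A K₀))
  letI := algAlpha M q (inertiaField A K₀)
  haveI : IsScalarTower ↥(A.comap (algebraMap (inertiaField A K₀) Kb))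
      ↥(ratForm M (inertiaField A K₀)) ↥(ratForm (M * q) (inertiaField A K₀)) :=
    isScalarTower_algAlpha M q (inertiaField A K₀) A
  intro y _ hymax h₁ h₂
  haveI := hymax
  haveI : FiniteDimensional ℚ ↥(inertiaField A K₀) := finiteDimensional_inertiaField A K₀
  haveI : IsDiscreteValuationRing ↥(A.comap (algebraMap (inertiaField A K₀) Kb)) :=
    H78.isDVR_comap hAtop (inertiaField A K₀)
  obtain ⟨π, e, g, hB, -, -⟩ := inertiaBase_exists A K₀ q hqF.out hA
  have hqA : Irreducible ((q : ℕ) : ↥(A.comap (algebraMap (inertiaField A K₀) Kb))) :=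
    hB.irreducible_natCast hqF.out hA
  haveI : FaithfulSMul ↥(A.comap (algebraMap (inertiaField A K₀) Kb))
      ↥(ratForm M (inertiaField A K₀)) :=
    H78.faithfulSMul_comap A (inertiaField A K₀) (ratForm M (inertiaField A K₀))
  haveI : FiniteDimensional ↥(ratForm M (inertiaField A K₀))
      ↥(ratForm (M * q) (inertiaField A K₀)) :=
    finite_of_finrank_eq_succ
      (Fermat.Agent.S34.H59.finrank_alphaForm M q (inertiaField A K₀) hqF.out hqM)
  have hS := (hx₀.2 (inertiaField A K₀) hx).1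
  obtain ⟨σ, hσA, hσA', hσx, kron1, kron2⟩ :=
    Fermat.Agent.S34.H34.exists_frob_supply hTG K₀ ⟨x₀, hx⟩ hx₀.1
      (fun g hg => H80.ds_chart_le hS g hg)
  exact crossing_regular_ratForm hTG (inertiaField A K₀) hqA ⟨x₀, hx⟩ hS σ hσA hσA' hσx kron1
    kron2 y (hbeta_local_of_global _ (betaForm M q (inertiaField A K₀)) hβ y)
    (hU y hymax h₁ h₂) h₁ h₂

/-- **Supplier (β) for `x₀ = j(q^M)`** (helper64's `betaForm_jtop_mem_chart`), any `E`. -/
theorem betaSupplyAt_jtop (A : ValuationSubring Kb) (E : IntermediateField ℚ Kb)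
    (hx : Fermat.Agent.S18.H28.jtop M ∈ ratForm M E) :
    BetaSupplyAt M q A E ⟨Fermat.Agent.S18.H28.jtop M, hx⟩ := by
  haveI : NeZero q := ⟨hqF.out.ne_zero⟩
  letI := algComap (A.comap (algebraMap E Kb)) (ratForm M E)
  letI := algComap (A.comap (algebraMap E Kb)) (ratForm (M * q) E)
  letI := algAlpha M q E
  haveI : IsScalarTower ↥(A.comap (algebraMap E Kb)) ↥(ratForm M E) ↥(ratForm (M * q) E) :=
    isScalarTower_algAlpha M q E A
  exact beta_mem_chart (⟨Fermat.Agent.S18.H28.jtop M, hx⟩ : ↥(ratForm M E)) (betaForm M q E)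
    (fun a => betaForm_algebraMap M q E (a : E))
    (Fermat.Agent.S34.H64.betaForm_jtop_mem_chart M q E A ⟨Fermat.Agent.S18.H28.jtop M, hx⟩ rfl)

/-- **Supplier (U) for `x₀ = j(q^M)`** (helper59's `hunr_cross_jtop_le`), any `E` over which `q`
is a uniformiser. -/
theorem unrSupplyAt_jtop (hNoEll : NoElliptic M) (E : IntermediateField ℚ Kb)
    [IsDiscreteValuationRing ↥(A.comap (algebraMap E Kb))]
    (hqA : Irreducible ((q : ℕ) : ↥(A.comap (algebraMap E Kb))))
    (hx : Fermat.Agent.S18.H28.jtop M ∈ ratForm M E)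
    (hS : letI := algComap (A.comap (algebraMap E Kb)) (ratForm M E)
      DSetup ↥(A.comap (algebraMap E Kb)) (gaussForm M hqM A hA E)
        (⟨Fermat.Agent.S18.H28.jtop M, hx⟩ : ↥(ratForm M E))) :
    UnrSupplyAt M q A O₁ w E ⟨Fermat.Agent.S18.H28.jtop M, hx⟩ := by
  haveI : NeZero q := ⟨hqF.out.ne_zero⟩
  intro y _ _ _
  exact Fermat.Agent.S34.H59.hunr_cross_jtop_le M q E A hqF.out hqM hNoEll hqA hx _ hS y

end Reg

section Final

/-- The two Hauptmodul cases of the standard base function (`q = 3`: level two; `q = 2`: level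
three). -/
def IsHauptCase (M q : ℕ) [NeZero M] (x₀ : FN M) : Prop :=
  (q = 3 ∧ ∃ (n : ℕ) (_ : NeZero n) (hN : M = n * 2), x₀ = hauptTwo n M hN) ∨
  (q = 2 ∧ ∃ (n : ℕ) (_ : NeZero n) (hN : M = n * 3), x₀ = hauptThree n M hN)

/-- **Supplier (β) for the Hauptmoduln** (`q ∈ {2, 3}`). -/
def HauptBeta : Prop :=
  ∀ (M q : ℕ) [NeZero M] [Fact q.Prime] (hqM : ¬ q ∣ M), LevelOK M q →
    ∀ (A : ValuationSubring Kb) (hA : A.LiesOverPrime q) (x₀ : FN M),
      IsBase M q hqM A hA x₀ → IsHauptCase M q x₀ →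
      ∀ (K₀ : IntermediateField ℚ Kb) [FiniteDimensional ℚ K₀] [Normal ℚ K₀]
        (hx : x₀ ∈ ratForm M (inertiaField A K₀)),
        BetaSupplyAt M q A (inertiaField A K₀) ⟨x₀, hx⟩

/-- **Supplier (U) for the Hauptmoduln** (`q ∈ {2, 3}`). -/
def HauptUnr : Prop :=
  ∀ (M q : ℕ) [NeZero M] [Fact q.Prime] (hqM : ¬ q ∣ M), LevelOK M q →
    ∀ (A : ValuationSubring Kb) (hA : A.LiesOverPrime q) (_hAtop : A ≠ ⊤)
      (O₁ : ValuationSubring (FN (M * q))) (w : FN (M * q) ≃+* FN (M * q)),
      TwoGauss M q hqM A hA O₁ w →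
      ∀ (x₀ : FN M), IsBase M q hqM A hA x₀ → IsHauptCase M q x₀ →
      ∀ (K₀ : IntermediateField ℚ Kb) [FiniteDimensional ℚ K₀] [Normal ℚ K₀]
        (hx : x₀ ∈ ratForm M (inertiaField A K₀)),
        UnrSupplyAt M q A O₁ w (inertiaField A K₀) ⟨x₀, hx⟩

/-- **(E1): the regular node over the inertia field**, for the three standard base functions:
`j(q^M)` unconditionally, the two Hauptmoduln from their two suppliers. -/
theorem regularCrossLeaf_of (hβ : HauptBeta) (hU : HauptUnr) : RegularCrossLeaf := by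
  intro M q _ hqF hqM hlev A hA hAtop O₁ w hTG x₀ hx₀ hB K₀ _ _ jE hjE
  haveI : NeZero q := ⟨hqF.out.ne_zero⟩
  have hx : x₀ ∈ ratForm M (inertiaField A K₀) := mem_ratForm_of_mem_range M _ hx₀.1
  obtain rfl : jE = alphaForm M q (inertiaField A K₀) ⟨x₀, hx⟩ := Subtype.ext hjE
  rcases hB.cases with ⟨-, -, rfl⟩ | hH
  · -- `x₀ = j(q^M)`
    letI := algComap (A.comap (algebraMap (inertiaField A K₀) Kb))
      (ratForm M (inertiaField A K₀))
    haveI : FiniteDimensional ℚ ↥(inertiaField A K₀) := finiteDimensional_inertiaField A K₀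
    haveI : IsDiscreteValuationRing ↥(A.comap (algebraMap (inertiaField A K₀) Kb)) :=
      H78.isDVR_comap hAtop (inertiaField A K₀)
    obtain ⟨π, e, g, hIB, -, -⟩ := inertiaBase_exists A K₀ q hqF.out hA
    have hqA : Irreducible ((q : ℕ) : ↥(A.comap (algebraMap (inertiaField A K₀) Kb))) :=
      hIB.irreducible_natCast hqF.out hA
    exact regularCross_of_supply hAtop hTG _ hx₀ K₀ hx
      (betaSupplyAt_jtop A (inertiaField A K₀) hx)
      (unrSupplyAt_jtop hlev.1 (inertiaField A K₀) hqA hx (hx₀.2 (inertiaField A K₀) hx).1)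
  · exact regularCross_of_supply hAtop hTG x₀ hx₀ K₀ hx
      (hβ M q hqM hlev A hA x₀ hx₀ hH K₀ hx)
      (hU M q hqM hlev A hA hAtop O₁ w hTG x₀ hx₀ hH K₀ hx)

end Final

end Fermat.Agent.S34.H68
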