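/-
S34 / Program B' (helper68): the frozen S34 from the ONE geometric Prop `S34.H27.GeoTarget`.

`s34_of_geoTarget` has the binders of the frozen statement `Fermat/Statements/S34.lean` verbatim,
preceded by the hypothesis `h : Fermat.Agent.S34.H27.GeoTarget`.  It chains
* helper27's `b1Statement_of_geoTarget` (Dirichlet auxiliary prime `r ≡ 11 mod 12` + TRANSFER),
* helper64's `isUnipotentOnInertiaAt_of_leaves` (trace comparison, exponent loss `a + c`),
* helper34's landed S31 leaves (`ajLeaf`, `esLeaf`, `cycLeaf`, `stableLeaf`, `haLeaf`).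
So `Fermat/Agent/S34.lean` is `s34_of_geoTarget geoTarget hp hp𝒪 hpS hNS H q hq hqp hqN hq2` once a
theorem `geoTarget : S34.H27.GeoTarget` is available.
-/
import Mathlib
import Fermat.Prelude.Def_CuspForm_HeckeGaloisRepDatum
import Fermat.Prelude.Def_GaloisRep_LocalConditions
import Fermat.Agent.S31.H34.AJ
import Fermat.Agent.S34.H64.Top
import Fermat.Agent.S34.H27.GeoTarget

set_option autoImplicit false

open IsLocalRing
open CuspForm CuspForm.HeckeGaloisRepDatum

namespace Fermat.Agent.S34.H68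

/-- The two copies of the binding interface (helper27's and helper64's) agree. -/
theorem b1Statement_H64_of_H27 {N q p : ℕ} [NeZero N]
    (h : Fermat.Agent.S34.H27.B1Statement N q p) : Fermat.Agent.S34.H64.B1Statement N q p := h

/-- **The frozen S34 from the geometric target `GeoTarget`.** -/
theorem s34_of_geoTarget (h : Fermat.Agent.S34.H27.GeoTarget)
    {𝒪 : Type} [CommRing 𝒪] [IsDomain 𝒪] [IsDiscreteValuationRing 𝒪]
    [IsAdicComplete (maximalIdeal 𝒪) 𝒪] [Finite (ResidueField 𝒪)] [CharZero 𝒪]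
    {p : ℕ} (hp : p.Prime) (hp𝒪 : (p : 𝒪) ∈ maximalIdeal 𝒪)
    {N : ℕ} [NeZero N] {S : Finset ℕ} (hpS : p ∈ S) (hNS : ∀ q : ℕ, q.Prime → q ∣ N → q ∈ S)
    {θ : CuspForm.heckeAlgebra N 2 (↑S : Set ℕ) →+* ResidueField 𝒪}
    {T : Type} [CommRing T] [IsLocalRing T] [IsNoetherianRing T]
    [IsAdicComplete (maximalIdeal T) T] [Algebra 𝒪 T] [IsLocalHom (algebraMap 𝒪 T)]
    [Module.Finite 𝒪 T] [Module.Free 𝒪 T]
    (H : CuspForm.HeckeGaloisRepDatum N (↑S : Set ℕ) 𝒪 θ T)
    (q : ℕ) (hq : q.Prime) (hqp : q ≠ p) (hqN : q ∣ N) (hq2 : ¬ q ^ 2 ∣ N) :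
    H.ρ.IsUnipotentOnInertiaAt q :=
  Fermat.Agent.S34.H64.isUnipotentOnInertiaAt_of_leaves
    (Fermat.Agent.S31.H34.ajLeaf N p hp.ne_zero) (Fermat.Agent.S31.H34.esLeaf N p)
    (Fermat.Agent.S31.H34.cycLeaf p hp) (Fermat.Agent.S31.H34.stableLeaf N p)
    (Fermat.Agent.S31.H34.haLeaf N p S hNS hp.ne_zero) hp hp𝒪 hpS hNS H q hq hqp
    (b1Statement_H64_of_H27
      (Fermat.Agent.S34.H27.b1Statement_of_geoTarget h N q p hq hp hqp hqN hq2))

end Fermat.Agent.S34.H68
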