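/-
S34 / Program B' (helper68): the shell of `Fermat/Agent/S34.lean`.

The frozen S34 (binders verbatim) from
* `s34_of_geoTarget2` : helper27's second root `S34.H27.GeoTarget2` (levels also divisible by
  `2`, `3` away from `q`);
* `s34_of_leaves`     : the three leaves of helper30's skeleton `S34/H30/Skeleton.lean`
  (`DictStatement`, `LocalAbsStatement`, `ModelStatement`).
-/
import Mathlib
import Fermat.Agent.S34.H68.Final
import Fermat.Agent.S34.H27.GeoTarget2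
import Fermat.Agent.S34.H30.Skeleton

set_option autoImplicit false

open IsLocalRing
open CuspForm CuspForm.HeckeGaloisRepDatum

namespace Fermat.Agent.S34.H68

/-- **The frozen S34 from the second geometric target `GeoTarget2`.** -/
theorem s34_of_geoTarget2 (h : Fermat.Agent.S34.H27.GeoTarget2)
    {𝒪 : Type} [CommRing 𝒪] [IsDomain 𝒪] [IsDiscreteValuationRing 𝒪]
    [IsAdicComplete (maximalIdeal 𝒪) 𝒪] [Finite (ResidueField 𝒪)] [CharZero 𝒪]
    {p : ℕ} (hp : p.Prime) (hp𝒪 : (p : 𝒪) ∈ maximalIdeal 𝒪)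
    {N : ℕ} [NeZero N] {S : Finset ℕ} (hpS : p ∈ S) (hNS : ∀ q : ℕ, q.Prime → q ∣ N → q ∈ S)
    {θ : CuspForm.heckeAlgebra N 2 (↑S : Set ℕ) →+* ResidueField 𝒪}
    {T : Type} [CommRing T] [IsLocalRing T] [IsNoetherianRing T]
    [IsAdicComplete (maximalIdeal T) T] [Algebra 𝒪 T] [IsLocalHom (algebraMap 𝒪 T)]
    [Module.Finite 𝒪 T] [Module.Free 𝒪 T]
    (H : CuspForm.HeckeGaloisRepDatum N (↑S : Set ℕ) 𝒪 θ T)
    (q : ℕ) (hq : q.Prime) (hqp : q ≠ p) (hqN : q ∣ N) (hq2 : ¬ q ^ 2 ∣ N) :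
    H.ρ.IsUnipotentOnInertiaAt q :=
  Fermat.Agent.S34.H64.isUnipotentOnInertiaAt_of_leaves
    (Fermat.Agent.S31.H34.ajLeaf N p hp.ne_zero) (Fermat.Agent.S31.H34.esLeaf N p)
    (Fermat.Agent.S31.H34.cycLeaf p hp) (Fermat.Agent.S31.H34.stableLeaf N p)
    (Fermat.Agent.S31.H34.haLeaf N p S hNS hp.ne_zero) hp hp𝒪 hpS hNS H q hq hqp
    (b1Statement_H64_of_H27
      (Fermat.Agent.S34.H27.b1Statement_of_geoTarget2 h N q p hq hp hqp hqN hq2))

/-- **The frozen S34 from the three leaves of the skeleton `S34/H30/Skeleton.lean`.** -/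
theorem s34_of_leaves (hdict : Fermat.Agent.S34.H30.DictStatement)
    (hloc : Fermat.Agent.S34.H30.LocalAbsStatement)
    (hmodel : Fermat.Agent.S34.H30.ModelStatement)
    {𝒪 : Type} [CommRing 𝒪] [IsDomain 𝒪] [IsDiscreteValuationRing 𝒪]
    [IsAdicComplete (maximalIdeal 𝒪) 𝒪] [Finite (ResidueField 𝒪)] [CharZero 𝒪]
    {p : ℕ} (hp : p.Prime) (hp𝒪 : (p : 𝒪) ∈ maximalIdeal 𝒪)
    {N : ℕ} [NeZero N] {S : Finset ℕ} (hpS : p ∈ S) (hNS : ∀ q : ℕ, q.Prime → q ∣ N → q ∈ S)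
    {θ : CuspForm.heckeAlgebra N 2 (↑S : Set ℕ) →+* ResidueField 𝒪}
    {T : Type} [CommRing T] [IsLocalRing T] [IsNoetherianRing T]
    [IsAdicComplete (maximalIdeal T) T] [Algebra 𝒪 T] [IsLocalHom (algebraMap 𝒪 T)]
    [Module.Finite 𝒪 T] [Module.Free 𝒪 T]
    (H : CuspForm.HeckeGaloisRepDatum N (↑S : Set ℕ) 𝒪 θ T)
    (q : ℕ) (hq : q.Prime) (hqp : q ≠ p) (hqN : q ∣ N) (hq2 : ¬ q ^ 2 ∣ N) :
    H.ρ.IsUnipotentOnInertiaAt q :=
  s34_of_geoTarget (Fermat.Agent.S34.H30.geoTarget_of_leaves hdict hloc hmodel)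
    hp hp𝒪 hpS hNS H q hq hqp hqN hq2

end Fermat.Agent.S34.H68
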