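/-
S34 / Program B', M6b-concrete (i), LOCAL ASSEMBLY, second form (helper68).

Same as `CrossLoc.lean` (`ChartCross`), with two hypotheses weakened so that the statement also
applies to the charts of a Hauptmodul (`q ∈ {2, 3}`), where the finite chart contains cusps:

* the second degeneracy map `β : S₀ → L` is only required to map `S₀` into the semilocal ring of
  `C₀` over `s` (`beta_mem`), not into `C₀` itself;
* unramifiedness away from `q` is only required at the primes `Q ≤ x₀` of `C₀` (the primes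
  through the crossing point).

`ChartCrossL.regular` / `ChartCrossL.regular_atPrime` : the regular node `m = (J, b)`,
`J * b = q`.
-/
import Fermat.Agent.S34.H68.CrossLoc

set_option autoImplicit false
set_option linter.style.haveILetI false
set_option linter.unusedSectionVars false

open Polynomial

noncomputable section

namespace Fermat.Agent.S34.H68

open IsLocalRing Fermat.Agent.S34.H6

section Loc

variable {S₀ C₀ K L : Type*} [CommRing S₀] [IsDomain S₀] [CommRing C₀] [IsDomain C₀]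
  [Field K] [Field L] [Algebra K L] [Algebra S₀ C₀] [Algebra S₀ K] [Algebra C₀ L] [Algebra S₀ L]
  [IsScalarTower S₀ K L] [IsScalarTower S₀ C₀ L]

/-- The chart-level hypotheses at a crossing point `x₀` (over the closed point `s`) of the two
components `C₀ ∩ m(V₁)`, `C₀ ∩ m(V₂)`. -/
structure ChartCrossL (q : ℕ) (O₀ : ValuationSubring K) (V₁ V₂ : ValuationSubring L)
    (β : S₀ →+* L) (σ : S₀ ≃+* S₀) (s : Ideal S₀) (x₀ : Ideal C₀) : Prop where
  /-- `q` is a prime number. -/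
  hq : q.Prime
  /-- `S₀ ⊆ K`. -/
  injS : Function.Injective (algebraMap S₀ K)
  /-- `V₁` lies over `O₀`. -/
  comap₁ : V₁.comap (algebraMap K L) = O₀
  /-- `V₂` lies over `O₀`. -/
  comap₂ : V₂.comap (algebraMap K L) = O₀
  /-- `S₀ ⊆ O₀`. -/
  memS : ∀ a : S₀, algebraMap S₀ K a ∈ O₀
  /-- `C₀ ⊆ V₁`. -/
  memC₁ : ∀ c : C₀, algebraMap C₀ L c ∈ V₁
  /-- `C₀ ⊆ V₂`. -/
  memC₂ : ∀ c : C₀, algebraMap C₀ L c ∈ V₂
  /-- `q ∈ m(O₀)`. -/
  q_mem : (q : K) ∈ O₀.nonunits
  /-- `S₀ ∩ m(O₀) = q S₀`. -/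
  center : ∀ a : S₀, algebraMap S₀ K a ∈ O₀.nonunits → (q : S₀) ∣ a
  /-- `O₀` is the localisation of `S₀` at `(q)`. -/
  loc : ∀ v ∈ O₀, ∃ a b : S₀, algebraMap S₀ K b ∉ O₀.nonunits ∧
    v * algebraMap S₀ K b = algebraMap S₀ K a
  /-- the special fibre of `C₀` is reduced: `C₀ ∩ m(V₁) ∩ m(V₂) = q C₀`. -/
  inf : ∀ c : C₀, algebraMap C₀ L c ∈ V₁.nonunits → algebraMap C₀ L c ∈ V₂.nonunits → (q : C₀) ∣ c
  /-- `S₀ → C₀ / (C₀ ∩ m(V₁))` is surjective. -/
  surj : ∀ c : C₀, ∃ a : S₀, algebraMap C₀ L c - algebraMap S₀ L a ∈ V₁.nonunits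
  /-- `C₀ ⊆ L`. -/
  injC : Function.Injective (algebraMap C₀ L)
  /-- `β` maps `S₀` into the semilocal ring of `C₀` over `s`. -/
  beta_mem : ∀ g : S₀, ∃ (c : C₀) (d : S₀), d ∉ s ∧ β g * algebraMap S₀ L d = algebraMap C₀ L c
  /-- Kronecker on the first component. -/
  kron1 : ∀ g : S₀, β g - algebraMap S₀ L (σ.symm g) ^ q ∈ V₁.nonunits
  /-- Kronecker on the second component. -/
  kron2 : ∀ f : S₀, algebraMap S₀ L f - β (σ.symm f) ^ q ∈ V₂.nonunits
  /-- `q ∈ s`. -/
  q_mem_s : (q : S₀) ∈ s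
  /-- the crossing point is a prime ideal. -/
  prime_x₀ : x₀.IsPrime
  /-- the crossing point lies over `s`. -/
  comap_x₀ : x₀.comap (algebraMap S₀ C₀) = s
  /-- the crossing point lies on the first component. -/
  le₁ : ∀ c : C₀, algebraMap C₀ L c ∈ V₁.nonunits → c ∈ x₀
  /-- the crossing point lies on the second component. -/
  le₂ : ∀ c : C₀, algebraMap C₀ L c ∈ V₂.nonunits → c ∈ x₀

namespace ChartCrossL

variable {q : ℕ} {O₀ : ValuationSubring K} {V₁ V₂ : ValuationSubring L} {β : S₀ →+* L}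
  {σ : S₀ ≃+* S₀} {s : Ideal S₀} [s.IsPrime] {x₀ : Ideal C₀}
  (h : ChartCrossL q O₀ V₁ V₂ β σ s x₀)

include h

theorem algebraMap_ne_zero {d : S₀} (hd : d ∉ s) : algebraMap S₀ K d ≠ 0 :=
  (map_ne_zero_iff _ h.injS).mpr (fun h0 => hd (h0 ▸ s.zero_mem))

theorem isUnit_S (y : s.primeCompl) : IsUnit (algebraMap S₀ K (y : S₀)) :=
  IsUnit.mk0 _ (h.algebraMap_ne_zero y.2)

theorem isUnit_R (y : Algebra.algebraMapSubmonoid C₀ s.primeCompl) :
    IsUnit (algebraMap C₀ L (y : C₀)) := by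
  obtain ⟨d, hd, hdy⟩ := y.2
  rw [← hdy, ← IsScalarTower.algebraMap_apply S₀ C₀ L, IsScalarTower.algebraMap_apply S₀ K L]
  exact IsUnit.mk0 _ ((map_ne_zero_iff _ (algebraMap K L).injective).mpr (h.algebraMap_ne_zero hd))

/-- The canonical map `(S₀)_s → K`. -/
def locS : Localization.AtPrime s →+* K :=
  IsLocalization.lift (M := s.primeCompl) h.isUnit_S

/-- The canonical map `C₀ ⊗ (S₀)_s → L`. -/
def locR : SemiLoc C₀ s →+* L :=
  IsLocalization.lift (M := Algebra.algebraMapSubmonoid C₀ s.primeCompl) h.isUnit_R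

theorem locS_algebraMap (a : S₀) :
    h.locS (algebraMap S₀ (Localization.AtPrime s) a) = algebraMap S₀ K a :=
  IsLocalization.lift_eq _ a

theorem locR_algebraMap (c : C₀) :
    h.locR (algebraMap C₀ (SemiLoc C₀ s) c) = algebraMap C₀ L c :=
  IsLocalization.lift_eq _ c

theorem locR_algebraMap_S (z : Localization.AtPrime s) :
    h.locR (algebraMap (Localization.AtPrime s) (SemiLoc C₀ s) z) = algebraMap K L (h.locS z) := by
  have key : (h.locR).comp (algebraMap (Localization.AtPrime s) (SemiLoc C₀ s)) =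
      (algebraMap K L).comp h.locS := by
    apply IsLocalization.ringHom_ext s.primeCompl
    ext a
    simp only [RingHom.comp_apply]
    rw [← IsScalarTower.algebraMap_apply S₀ (Localization.AtPrime s) (SemiLoc C₀ s),
      IsScalarTower.algebraMap_apply S₀ C₀ (SemiLoc C₀ s), h.locR_algebraMap, h.locS_algebraMap,
      ← IsScalarTower.algebraMap_apply S₀ C₀ L, ← IsScalarTower.algebraMap_apply S₀ K L]
  exact RingHom.congr_fun key z

theorem locR_algebraMap_S₀ (a : S₀) :
    h.locR (algebraMap (Localization.AtPrime s) (SemiLoc C₀ s)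
      (algebraMap S₀ (Localization.AtPrime s) a)) = algebraMap S₀ L a := by
  rw [h.locR_algebraMap_S, h.locS_algebraMap, ← IsScalarTower.algebraMap_apply S₀ K L]

theorem repS (z : Localization.AtPrime s) :
    ∃ a d : S₀, d ∉ s ∧ z * algebraMap S₀ (Localization.AtPrime s) d =
      algebraMap S₀ (Localization.AtPrime s) a := by
  obtain ⟨⟨a, d⟩, hz⟩ := IsLocalization.surj s.primeCompl z
  exact ⟨a, d, d.2, hz⟩

theorem repR (r : SemiLoc C₀ s) :
    ∃ (c : C₀) (d : S₀), d ∉ s ∧ r * algebraMap C₀ (SemiLoc C₀ s) (algebraMap S₀ C₀ d) =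
      algebraMap C₀ (SemiLoc C₀ s) c := by
  obtain ⟨⟨c, y⟩, hr⟩ := IsLocalization.surj (Algebra.algebraMapSubmonoid C₀ s.primeCompl) r
  obtain ⟨d, hd, hdy⟩ := y.2
  exact ⟨c, d, hd, by rw [hdy]; exact hr⟩

theorem notMem_nonunits {d : S₀} (hd : d ∉ s) : algebraMap S₀ K d ∉ O₀.nonunits := fun hm => by
  obtain ⟨e, rfl⟩ := h.center d hm
  exact hd (s.mul_mem_right _ h.q_mem_s)

theorem algebraMap_mem₁ (a : S₀) : algebraMap S₀ L a ∈ V₁ := by
  rw [IsScalarTower.algebraMap_apply S₀ K L, algebraMap_mem_iff O₀ V₁ h.comap₁]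
  exact h.memS a

theorem algebraMap_mem₂ (a : S₀) : algebraMap S₀ L a ∈ V₂ := by
  rw [IsScalarTower.algebraMap_apply S₀ K L, algebraMap_mem_iff O₀ V₂ h.comap₂]
  exact h.memS a

theorem notMem_nonunits₁ {d : S₀} (hd : d ∉ s) : algebraMap S₀ L d ∉ V₁.nonunits := by
  rw [IsScalarTower.algebraMap_apply S₀ K L, algebraMap_mem_nonunits_iff O₀ V₁ h.comap₁]
  exact h.notMem_nonunits hd

theorem notMem_nonunits₂ {d : S₀} (hd : d ∉ s) : algebraMap S₀ L d ∉ V₂.nonunits := by
  rw [IsScalarTower.algebraMap_apply S₀ K L, algebraMap_mem_nonunits_iff O₀ V₂ h.comap₂]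
  exact h.notMem_nonunits hd

theorem isUnit_algebraMap_R {d : S₀} (hd : d ∉ s) :
    IsUnit (algebraMap C₀ (SemiLoc C₀ s) (algebraMap S₀ C₀ d)) :=
  IsLocalization.map_units (SemiLoc C₀ s)
    (⟨algebraMap S₀ C₀ d, ⟨d, hd, rfl⟩⟩ : Algebra.algebraMapSubmonoid C₀ s.primeCompl)

theorem isUnit_algebraMap_S {d : S₀} (hd : d ∉ s) :
    IsUnit (algebraMap S₀ (Localization.AtPrime s) d) :=
  IsLocalization.map_units (Localization.AtPrime s) (⟨d, hd⟩ : s.primeCompl)

theorem locS_mem (z : Localization.AtPrime s) : h.locS z ∈ O₀ := by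
  obtain ⟨a, d, hd, hz⟩ := h.repS z
  have e : h.locS z * algebraMap S₀ K d = algebraMap S₀ K a := by
    rw [← h.locS_algebraMap d, ← map_mul, hz, h.locS_algebraMap]
  exact mem_of_mul_mem_of_notMem_nonunits O₀ (by rw [e]; exact h.memS a) (h.notMem_nonunits hd)

theorem locR_mul (r : SemiLoc C₀ s) {c : C₀} {d : S₀}
    (hr : r * algebraMap C₀ (SemiLoc C₀ s) (algebraMap S₀ C₀ d) = algebraMap C₀ (SemiLoc C₀ s) c) :
    h.locR r * algebraMap S₀ L d = algebraMap C₀ L c := by
  rw [IsScalarTower.algebraMap_apply S₀ C₀ L, ← h.locR_algebraMap (algebraMap S₀ C₀ d), ← map_mul,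
    hr, h.locR_algebraMap]

theorem locR_mem₁ (r : SemiLoc C₀ s) : h.locR r ∈ V₁ := by
  obtain ⟨c, d, hd, hr⟩ := h.repR r
  have e := h.locR_mul r hr
  exact mem_of_mul_mem_of_notMem_nonunits V₁ (by rw [e]; exact h.memC₁ c) (h.notMem_nonunits₁ hd)

theorem locR_mem₂ (r : SemiLoc C₀ s) : h.locR r ∈ V₂ := by
  obtain ⟨c, d, hd, hr⟩ := h.repR r
  have e := h.locR_mul r hr
  exact mem_of_mul_mem_of_notMem_nonunits V₂ (by rw [e]; exact h.memC₂ c) (h.notMem_nonunits₂ hd)

/-- The first component in the semilocal ring. -/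
def P₁ : Ideal (SemiLoc C₀ s) := pullIdeal h.locR V₁ h.locR_mem₁

/-- The second component in the semilocal ring. -/
def P₂ : Ideal (SemiLoc C₀ s) := pullIdeal h.locR V₂ h.locR_mem₂

theorem mem_P₁_iff (r : SemiLoc C₀ s) {c : C₀} {d : S₀} (hd : d ∉ s)
    (hr : r * algebraMap C₀ (SemiLoc C₀ s) (algebraMap S₀ C₀ d) = algebraMap C₀ (SemiLoc C₀ s) c) :
    r ∈ h.P₁ ↔ algebraMap C₀ L c ∈ V₁.nonunits := by
  have e := h.locR_mul r hr
  constructor
  · intro hm
    rw [← e]
    exact mul_mem_nonunits_left V₁ hm (h.algebraMap_mem₁ d)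
  · intro hm
    rw [← e] at hm
    exact mem_nonunits_of_mul_mem V₁ hm (h.notMem_nonunits₁ hd) (h.locR_mem₁ r)

theorem mem_P₂_iff (r : SemiLoc C₀ s) {c : C₀} {d : S₀} (hd : d ∉ s)
    (hr : r * algebraMap C₀ (SemiLoc C₀ s) (algebraMap S₀ C₀ d) = algebraMap C₀ (SemiLoc C₀ s) c) :
    r ∈ h.P₂ ↔ algebraMap C₀ L c ∈ V₂.nonunits := by
  have e := h.locR_mul r hr
  constructor
  · intro hm
    rw [← e]
    exact mul_mem_nonunits_left V₂ hm (h.algebraMap_mem₂ d)
  · intro hm
    rw [← e] at hm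
    exact mem_nonunits_of_mul_mem V₂ hm (h.notMem_nonunits₂ hd) (h.locR_mem₂ r)

theorem natCast_mem_P₁ : (q : SemiLoc C₀ s) ∈ h.P₁ := by
  show h.locR (q : SemiLoc C₀ s) ∈ V₁.nonunits
  rw [map_natCast, ← map_natCast (algebraMap K L), algebraMap_mem_nonunits_iff O₀ V₁ h.comap₁]
  exact h.q_mem

theorem natCast_mem_P₂ : (q : SemiLoc C₀ s) ∈ h.P₂ := by
  show h.locR (q : SemiLoc C₀ s) ∈ V₂.nonunits
  rw [map_natCast, ← map_natCast (algebraMap K L), algebraMap_mem_nonunits_iff O₀ V₂ h.comap₂]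
  exact h.q_mem

theorem disjoint_x₀ :
    Disjoint (Algebra.algebraMapSubmonoid C₀ s.primeCompl : Set C₀) (x₀ : Set C₀) := by
  rw [Set.disjoint_left]
  rintro y ⟨d, hd, rfl⟩ hy
  apply hd
  rw [← h.comap_x₀]
  exact hy

theorem map_x₀_isPrime : (Ideal.map (algebraMap C₀ (SemiLoc C₀ s)) x₀).IsPrime :=
  IsLocalization.isPrime_of_isPrime_disjoint _ _ x₀ h.prime_x₀ h.disjoint_x₀

theorem algebraMap_mem_map_x₀_iff (c : C₀) :
    algebraMap C₀ (SemiLoc C₀ s) c ∈ Ideal.map (algebraMap C₀ (SemiLoc C₀ s)) x₀ ↔ c ∈ x₀ := by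
  have hu := IsLocalization.under_map_of_isPrime_disjoint
    (Algebra.algebraMapSubmonoid C₀ s.primeCompl) (SemiLoc C₀ s) h.prime_x₀ h.disjoint_x₀
  constructor
  · intro hc
    rw [← hu]
    exact hc
  · intro hc
    exact Ideal.mem_map_of_mem _ hc

theorem P₁_le : h.P₁ ≤ Ideal.map (algebraMap C₀ (SemiLoc C₀ s)) x₀ := by
  intro r hr
  obtain ⟨c, d, hd, hrc⟩ := h.repR r
  have hc : c ∈ x₀ := h.le₁ c ((h.mem_P₁_iff r hd hrc).mp hr)
  have h1 : r * algebraMap C₀ (SemiLoc C₀ s) (algebraMap S₀ C₀ d) ∈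
      Ideal.map (algebraMap C₀ (SemiLoc C₀ s)) x₀ := by
    rw [hrc]
    exact Ideal.mem_map_of_mem _ hc
  exact (Ideal.mul_unit_mem_iff_mem _ (h.isUnit_algebraMap_R hd)).mp h1

theorem P₂_le : h.P₂ ≤ Ideal.map (algebraMap C₀ (SemiLoc C₀ s)) x₀ := by
  intro r hr
  obtain ⟨c, d, hd, hrc⟩ := h.repR r
  have hc : c ∈ x₀ := h.le₂ c ((h.mem_P₂_iff r hd hrc).mp hr)
  have h1 : r * algebraMap C₀ (SemiLoc C₀ s) (algebraMap S₀ C₀ d) ∈
      Ideal.map (algebraMap C₀ (SemiLoc C₀ s)) x₀ := by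
    rw [hrc]
    exact Ideal.mem_map_of_mem _ hc
  exact (Ideal.mul_unit_mem_iff_mem _ (h.isUnit_algebraMap_R hd)).mp h1

theorem algebraMap_S_S₀ (a : S₀) :
    algebraMap (Localization.AtPrime s) (SemiLoc C₀ s) (algebraMap S₀ (Localization.AtPrime s) a) =
      algebraMap C₀ (SemiLoc C₀ s) (algebraMap S₀ C₀ a) := by
  rw [← IsScalarTower.algebraMap_apply S₀ (Localization.AtPrime s) (SemiLoc C₀ s),
    IsScalarTower.algebraMap_apply S₀ C₀ (SemiLoc C₀ s)]

/-- The crossing point lies over the closed point of `(S₀)_s`. -/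
theorem comap_n (z : Localization.AtPrime s) :
    algebraMap (Localization.AtPrime s) (SemiLoc C₀ s) z ∈
      Ideal.map (algebraMap C₀ (SemiLoc C₀ s)) x₀ ↔ z ∈ maximalIdeal (Localization.AtPrime s) := by
  obtain ⟨a, d, hd, hz⟩ := h.repS z
  have hdu := h.isUnit_algebraMap_S hd
  have e1 : z ∈ maximalIdeal (Localization.AtPrime s) ↔ a ∈ s := by
    rw [← IsLocalization.AtPrime.to_map_mem_maximal_iff (Localization.AtPrime s) s a, ← hz]
    exact (Ideal.mul_unit_mem_iff_mem _ hdu).symm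
  have e2 : algebraMap (Localization.AtPrime s) (SemiLoc C₀ s) z ∈
      Ideal.map (algebraMap C₀ (SemiLoc C₀ s)) x₀ ↔ a ∈ s := by
    have h1 : algebraMap (Localization.AtPrime s) (SemiLoc C₀ s) z *
        algebraMap C₀ (SemiLoc C₀ s) (algebraMap S₀ C₀ d) =
        algebraMap C₀ (SemiLoc C₀ s) (algebraMap S₀ C₀ a) := by
      rw [← h.algebraMap_S_S₀, ← h.algebraMap_S_S₀, ← map_mul, hz]
    rw [← Ideal.mul_unit_mem_iff_mem _ (h.isUnit_algebraMap_R hd), h1,
      h.algebraMap_mem_map_x₀_iff, ← h.comap_x₀]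
    rfl
  rw [e1, e2]

theorem locR_injective : Function.Injective h.locR := by
  rw [injective_iff_map_eq_zero]
  intro r hr
  obtain ⟨c, d, hd, hrc⟩ := h.repR r
  have e := h.locR_mul r hrc
  rw [hr, zero_mul] at e
  have hc : c = 0 := h.injC (by rw [← e, map_zero])
  rw [hc, map_zero] at hrc
  exact (h.isUnit_algebraMap_R hd).mul_left_eq_zero.mp hrc

theorem exists_locR_eq (g : S₀) : ∃ r : SemiLoc C₀ s, h.locR r = β g := by
  obtain ⟨c, d, hd, hcd⟩ := h.beta_mem g
  obtain ⟨u, hu⟩ := (h.isUnit_algebraMap_R hd).exists_right_inv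
  refine ⟨algebraMap C₀ (SemiLoc C₀ s) c * u, ?_⟩
  have h1 : (algebraMap C₀ (SemiLoc C₀ s) c * u) *
      algebraMap C₀ (SemiLoc C₀ s) (algebraMap S₀ C₀ d) = algebraMap C₀ (SemiLoc C₀ s) c := by
    calc (algebraMap C₀ (SemiLoc C₀ s) c * u) * algebraMap C₀ (SemiLoc C₀ s) (algebraMap S₀ C₀ d)
        = algebraMap C₀ (SemiLoc C₀ s) c *
          (algebraMap C₀ (SemiLoc C₀ s) (algebraMap S₀ C₀ d) * u) := by ring
      _ = algebraMap C₀ (SemiLoc C₀ s) c := by rw [hu, mul_one]
  have e := h.locR_mul _ h1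
  have hd0 : algebraMap S₀ L d ≠ 0 := by
    rw [IsScalarTower.algebraMap_apply S₀ K L]
    exact (map_ne_zero_iff _ (algebraMap K L).injective).mpr (h.algebraMap_ne_zero hd)
  exact mul_right_cancel₀ hd0 (e.trans hcd.symm)

/-- The second degeneracy map into the semilocal ring. -/
def betaR : S₀ →+* SemiLoc C₀ s where
  toFun g := (h.exists_locR_eq g).choose
  map_one' := h.locR_injective (by
    rw [(h.exists_locR_eq 1).choose_spec, map_one, map_one])
  map_mul' a b := h.locR_injective (by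
    rw [(h.exists_locR_eq (a * b)).choose_spec, map_mul, map_mul,
      (h.exists_locR_eq a).choose_spec, (h.exists_locR_eq b).choose_spec])
  map_zero' := h.locR_injective (by
    rw [(h.exists_locR_eq 0).choose_spec, map_zero, map_zero])
  map_add' a b := h.locR_injective (by
    rw [(h.exists_locR_eq (a + b)).choose_spec, map_add, map_add,
      (h.exists_locR_eq a).choose_spec, (h.exists_locR_eq b).choose_spec])

theorem locR_betaR (g : S₀) : h.locR (h.betaR g) = β g :=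
  (h.exists_locR_eq g).choose_spec

/-- **The Kronecker data of helper34 on the semilocal ring.** -/
theorem crossKron :
    Fermat.Agent.S34.H34.CrossKron q (algebraMap S₀ (Localization.AtPrime s))
      h.betaR σ h.P₁ h.P₂
      (Ideal.map (algebraMap C₀ (SemiLoc C₀ s)) x₀) where
  hq := h.hq
  prime_n := h.map_x₀_isPrime
  le1 := h.P₁_le
  le2 := h.P₂_le
  q_mem2 := h.natCast_mem_P₂
  comap_n := h.comap_n
  kron1 := fun g => by
    show h.locR (_ - _ ^ q) ∈ V₁.nonunits
    rw [map_sub, map_pow, h.locR_betaR, h.locR_algebraMap_S₀]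
    exact h.kron1 g
  kron2 := fun f => by
    show h.locR (_ - _ ^ q) ∈ V₂.nonunits
    rw [map_sub, map_pow, h.locR_betaR, h.locR_algebraMap_S₀]
    exact h.kron2 f

/-! #### The fields of `PreNode` on the semilocal ring -/

theorem locS_injective : Function.Injective h.locS := by
  rw [injective_iff_map_eq_zero]
  intro z hz
  obtain ⟨a, d, hd, hzd⟩ := h.repS z
  have e : algebraMap S₀ K a = 0 := by
    rw [← h.locS_algebraMap a, ← hzd, map_mul, hz, zero_mul]
  have ha : a = 0 := h.injS (by rw [e, map_zero])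
  rw [ha, map_zero] at hzd
  exact (h.isUnit_algebraMap_S hd).mul_left_eq_zero.mp hzd

theorem algebraMap_injective :
    Function.Injective (algebraMap (Localization.AtPrime s) (SemiLoc C₀ s)) := by
  intro z w hzw
  apply h.locS_injective
  apply (algebraMap K L).injective
  rw [← h.locR_algebraMap_S, ← h.locR_algebraMap_S, hzw]

theorem locS_natCast_mem : h.locS (q : Localization.AtPrime s) ∈ O₀.nonunits := by
  rw [map_natCast]
  exact h.q_mem

/-- `(S₀)_s ∩ m(O₀) = q (S₀)_s`. -/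
theorem dvd_of_locS_mem (z : Localization.AtPrime s) (hz : h.locS z ∈ O₀.nonunits) :
    (q : Localization.AtPrime s) ∣ z := by
  obtain ⟨a, d, hd, hzd⟩ := h.repS z
  have e : algebraMap S₀ K a = h.locS z * algebraMap S₀ K d := by
    rw [← h.locS_algebraMap a, ← hzd, map_mul, h.locS_algebraMap]
  obtain ⟨a', rfl⟩ := h.center a (by rw [e]; exact mul_mem_nonunits_left O₀ hz (h.memS d))
  obtain ⟨u, hu⟩ := (h.isUnit_algebraMap_S hd).exists_right_inv
  refine ⟨algebraMap S₀ (Localization.AtPrime s) a' * u, ?_⟩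
  calc z = z * (algebraMap S₀ (Localization.AtPrime s) d * u) := by rw [hu, mul_one]
    _ = (z * algebraMap S₀ (Localization.AtPrime s) d) * u := by ring
    _ = (q : Localization.AtPrime s) * (algebraMap S₀ (Localization.AtPrime s) a' * u) := by
      rw [hzd, map_mul, map_natCast]
      ring

theorem comap1 (z : Localization.AtPrime s)
    (hz : algebraMap (Localization.AtPrime s) (SemiLoc C₀ s) z ∈ h.P₁) :
    (q : Localization.AtPrime s) ∣ z := by
  apply h.dvd_of_locS_mem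
  have h1 : h.locR (algebraMap (Localization.AtPrime s) (SemiLoc C₀ s) z) ∈ V₁.nonunits := hz
  rwa [h.locR_algebraMap_S, algebraMap_mem_nonunits_iff O₀ V₁ h.comap₁] at h1

theorem comap2 (z : Localization.AtPrime s)
    (hz : algebraMap (Localization.AtPrime s) (SemiLoc C₀ s) z ∈ h.P₂) :
    (q : Localization.AtPrime s) ∣ z := by
  apply h.dvd_of_locS_mem
  have h1 : h.locR (algebraMap (Localization.AtPrime s) (SemiLoc C₀ s) z) ∈ V₂.nonunits := hz
  rwa [h.locR_algebraMap_S, algebraMap_mem_nonunits_iff O₀ V₂ h.comap₂] at h1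

theorem inf_eq : h.P₁ ⊓ h.P₂ = Ideal.span {(q : SemiLoc C₀ s)} := by
  apply le_antisymm
  · rintro r ⟨hr1, hr2⟩
    obtain ⟨c, d, hd, hrc⟩ := h.repR r
    obtain ⟨c', rfl⟩ := h.inf c ((h.mem_P₁_iff r hd hrc).mp hr1) ((h.mem_P₂_iff r hd hrc).mp hr2)
    obtain ⟨u, hu⟩ := (h.isUnit_algebraMap_R hd).exists_right_inv
    rw [Ideal.mem_span_singleton]
    refine ⟨algebraMap C₀ (SemiLoc C₀ s) c' * u, ?_⟩
    calc r = r * (algebraMap C₀ (SemiLoc C₀ s) (algebraMap S₀ C₀ d) * u) := by rw [hu, mul_one]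
      _ = (r * algebraMap C₀ (SemiLoc C₀ s) (algebraMap S₀ C₀ d)) * u := by ring
      _ = (q : SemiLoc C₀ s) * (algebraMap C₀ (SemiLoc C₀ s) c' * u) := by
        rw [hrc, map_mul, map_natCast]
        ring
  · rw [Ideal.span_singleton_le_iff_mem]
    exact ⟨h.natCast_mem_P₁, h.natCast_mem_P₂⟩

theorem surj1 (r : SemiLoc C₀ s) :
    ∃ z : Localization.AtPrime s,
      r - algebraMap (Localization.AtPrime s) (SemiLoc C₀ s) z ∈ h.P₁ := by
  obtain ⟨c, d, hd, hrc⟩ := h.repR r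
  obtain ⟨a, ha⟩ := h.surj c
  refine ⟨IsLocalization.mk' (Localization.AtPrime s) a (⟨d, hd⟩ : s.primeCompl), ?_⟩
  set z : Localization.AtPrime s :=
    IsLocalization.mk' (Localization.AtPrime s) a (⟨d, hd⟩ : s.primeCompl) with hzdef
  have hz : z * algebraMap S₀ (Localization.AtPrime s) d =
      algebraMap S₀ (Localization.AtPrime s) a :=
    IsLocalization.mk'_spec (Localization.AtPrime s) a (⟨d, hd⟩ : s.primeCompl)
  have e1 : h.locS z * algebraMap S₀ K d = algebraMap S₀ K a := by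
    rw [← h.locS_algebraMap d, ← map_mul, hz, h.locS_algebraMap]
  have e2 : h.locR (r - algebraMap (Localization.AtPrime s) (SemiLoc C₀ s) z) *
      algebraMap S₀ L d = algebraMap C₀ L c - algebraMap S₀ L a := by
    rw [map_sub, sub_mul, h.locR_mul r hrc, h.locR_algebraMap_S,
      IsScalarTower.algebraMap_apply S₀ K L d, ← map_mul, e1,
      ← IsScalarTower.algebraMap_apply S₀ K L]
  show h.locR (r - algebraMap (Localization.AtPrime s) (SemiLoc C₀ s) z) ∈ V₁.nonunits
  exact mem_nonunits_of_mul_mem V₁ (by rw [e2]; exact ha) (h.notMem_nonunits₁ hd) (h.locR_mem₁ _)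

/-- `O₀` is the localisation of `(S₀)_s`. -/
theorem locS_loc (v : K) (hv : v ∈ O₀) :
    ∃ d z : Localization.AtPrime s, h.locS d ∉ O₀.nonunits ∧ v * h.locS d = h.locS z := by
  obtain ⟨a, b, hb, hab⟩ := h.loc v hv
  exact ⟨algebraMap S₀ _ b, algebraMap S₀ _ a, by rw [h.locS_algebraMap]; exact hb,
    by rw [h.locS_algebraMap, h.locS_algebraMap]; exact hab⟩

/-- `f ≡ (σ⁻² f) ^ (q ^ 2)` modulo the closed point below a crossing point. -/
theorem sub_pow_mem_maximalIdeal (f : S₀) :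
    algebraMap S₀ (Localization.AtPrime s) f -
      algebraMap S₀ (Localization.AtPrime s) (σ.symm (σ.symm f)) ^ (q ^ 2) ∈
        maximalIdeal (Localization.AtPrime s) := by
  have hk := h.crossKron
  rw [← h.comap_n, map_sub, map_pow]
  have k2 := hk.le2 (hk.kron2 f)
  have k1 := hk.le1 (hk.kron1 (σ.symm f))
  have k3 : h.betaR (σ.symm f) ^ q -
      (algebraMap (Localization.AtPrime s) (SemiLoc C₀ s)
        (algebraMap S₀ (Localization.AtPrime s) (σ.symm (σ.symm f))) ^ q) ^ q ∈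
      Ideal.map (algebraMap C₀ (SemiLoc C₀ s)) x₀ := by
    obtain ⟨e, he⟩ := sub_dvd_pow_sub_pow (h.betaR (σ.symm f))
      (algebraMap (Localization.AtPrime s) (SemiLoc C₀ s)
        (algebraMap S₀ (Localization.AtPrime s) (σ.symm (σ.symm f))) ^ q) q
    rw [he]
    exact Ideal.mul_mem_right _ _ k1
  have e : algebraMap (Localization.AtPrime s) (SemiLoc C₀ s)
        (algebraMap S₀ (Localization.AtPrime s) f) -
      algebraMap (Localization.AtPrime s) (SemiLoc C₀ s)
        (algebraMap S₀ (Localization.AtPrime s) (σ.symm (σ.symm f))) ^ (q ^ 2) =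
      (algebraMap (Localization.AtPrime s) (SemiLoc C₀ s)
        (algebraMap S₀ (Localization.AtPrime s) f) -
        h.betaR (σ.symm f) ^ q) +
      (h.betaR (σ.symm f) ^ q -
        (algebraMap (Localization.AtPrime s) (SemiLoc C₀ s)
          (algebraMap S₀ (Localization.AtPrime s) (σ.symm (σ.symm f))) ^ q) ^ q) := by
    rw [← pow_mul, sq]
    ring
  rw [e]
  exact Ideal.add_mem _ k2 k3

/-- The local parameter `t` is not divisible by `q`: the special fibre of `S₀` is not a point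
(witness `w`, in the application the coordinate). -/
theorem not_dvd_param (t : S₀)
    (hmax : maximalIdeal (Localization.AtPrime s) =
      Ideal.span {(q : Localization.AtPrime s), algebraMap S₀ (Localization.AtPrime s) t})
    (w : S₀) (hw : σ w = w) (hwu : algebraMap S₀ K (w - w ^ (q ^ 2)) ∉ O₀.nonunits) :
    ¬ (q : Localization.AtPrime s) ∣ algebraMap S₀ (Localization.AtPrime s) t := by
  intro hdvd
  have hle : maximalIdeal (Localization.AtPrime s) ≤
      Ideal.span {(q : Localization.AtPrime s)} := by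
    rw [hmax, Ideal.span_le]
    rintro z (rfl | hz)
    · exact Ideal.mem_span_singleton_self _
    · rw [Set.mem_singleton_iff.mp hz]
      exact Ideal.mem_span_singleton.mpr hdvd
  have hsw : σ.symm w = w := by
    rw [RingEquiv.symm_apply_eq, hw]
  have h1 := h.sub_pow_mem_maximalIdeal w
  rw [hsw, hsw] at h1
  obtain ⟨e, he⟩ := Ideal.mem_span_singleton.mp (hle h1)
  apply hwu
  have e2 : algebraMap S₀ K (w - w ^ (q ^ 2)) =
      h.locS (algebraMap S₀ (Localization.AtPrime s) w -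
        algebraMap S₀ (Localization.AtPrime s) w ^ (q ^ 2)) := by
    rw [map_sub, map_pow, map_sub, map_pow, h.locS_algebraMap]
  rw [e2, he, map_mul]
  exact mul_mem_nonunits_left O₀ h.locS_natCast_mem (h.locS_mem e)

theorem isDomain_semiLoc : IsDomain (SemiLoc C₀ s) := by
  apply IsLocalization.isDomain_localization
  rintro y ⟨d, hd, rfl⟩
  apply mem_nonZeroDivisors_of_ne_zero
  intro h0
  have h1 : algebraMap C₀ L (algebraMap S₀ C₀ d) = 0 := by rw [h0, map_zero]
  rw [← IsScalarTower.algebraMap_apply S₀ C₀ L, IsScalarTower.algebraMap_apply S₀ K L,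
    map_eq_zero] at h1
  exact h.algebraMap_ne_zero hd h1

/-- **The semilocal ring at a crossing point is local and satisfies `NodeHyp`.** -/
theorem nodeHyp [IsNoetherianRing S₀] [Module.Finite S₀ C₀] [FiniteDimensional K L]
    [IsDiscreteValuationRing O₀] (hne : V₁ ≠ V₂) (hdeg : Module.finrank K L = q + 1)
    (hprime : Prime (q : Localization.AtPrime s)) (t : S₀)
    (hmax : maximalIdeal (Localization.AtPrime s) =
      Ideal.span {(q : Localization.AtPrime s), algebraMap S₀ (Localization.AtPrime s) t})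
    (w : S₀) (hw : σ w = w) (hwu : algebraMap S₀ K (w - w ^ (q ^ 2)) ∉ O₀.nonunits) :
    ∃ _ : IsLocalRing (SemiLoc C₀ s),
      Fermat.Agent.S34.H46.NodeHyp q (Localization.AtPrime s) (SemiLoc C₀ s)
        (Fermat.Agent.S34.H34.crossθ q (algebraMap S₀ (Localization.AtPrime s)) σ t) h.P₁ h.P₂
        (Fermat.Agent.S34.H34.crossX q (algebraMap S₀ (Localization.AtPrime s))
          h.betaR σ t) := by
  have hk := h.crossKron
  have hθ' := h.not_dvd_param t hmax w hw hwu
  haveI : IsDomain (SemiLoc C₀ s) := h.isDomain_semiLoc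
  have hx_pow := hk.x_pow t
  have hxq : h.locR (Fermat.Agent.S34.H34.crossX q (algebraMap S₀ (Localization.AtPrime s))
        h.betaR σ t) ^ q -
      algebraMap K L (h.locS
        (Fermat.Agent.S34.H34.crossθ q (algebraMap S₀ (Localization.AtPrime s)) σ t)) ∈
      V₂.nonunits := by
    have h1 : h.locR (Fermat.Agent.S34.H34.crossX q (algebraMap S₀ (Localization.AtPrime s))
          h.betaR σ t ^ q -
        algebraMap (Localization.AtPrime s) (SemiLoc C₀ s)
          (Fermat.Agent.S34.H34.crossθ q (algebraMap S₀ (Localization.AtPrime s)) σ t)) ∈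
        V₂.nonunits := hx_pow
    rwa [map_sub, map_pow, h.locR_algebraMap_S] at h1
  have hyn : ∀ v ∈ O₀, h.locR (Fermat.Agent.S34.H34.crossX q
      (algebraMap S₀ (Localization.AtPrime s)) h.betaR σ t) -
      algebraMap K L v ∉ V₂.nonunits :=
    fun v hv => Fermat.Agent.S34.H36.sub_algebraMap_notMem_nonunits O₀ V₂ h.comap₂ h.locS
      h.locS_mem h.locS_loc (q : Localization.AtPrime s) _ hprime (hk.max_S t hmax)
      (hk.not_dvd_theta t hmax hθ') h.locS_natCast_mem h.dvd_of_locS_mem q h.hq.two_le _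
      (h.locR_mem₂ _) hxq v hv
  have hres : ∀ g ∈ V₂, ∃ c : Fin q → K, (∀ i, c i ∈ O₀) ∧
      g - ∑ i, algebraMap K L (c i) * h.locR (Fermat.Agent.S34.H34.crossX q
        (algebraMap S₀ (Localization.AtPrime s)) h.betaR σ t) ^
          (i : ℕ) ∈ V₂.nonunits :=
    fun g hg => Fermat.Agent.S34.H57.twoExt_res2 K L O₀ q h.hq h.q_mem hdeg V₁ V₂ h.comap₁
      h.comap₂ hne _ (h.locR_mem₂ _) ⟨_, h.locS_mem _, hxq⟩ hyn g hg
  have frac2 : ∀ r : SemiLoc C₀ s, ∃ d f : (Localization.AtPrime s)[X],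
      aeval (Fermat.Agent.S34.H34.crossX q (algebraMap S₀ (Localization.AtPrime s))
        h.betaR σ t) d ∉ h.P₂ ∧
      aeval (Fermat.Agent.S34.H34.crossX q (algebraMap S₀ (Localization.AtPrime s))
        h.betaR σ t) d * r -
      aeval (Fermat.Agent.S34.H34.crossX q (algebraMap S₀ (Localization.AtPrime s))
        h.betaR σ t) f ∈ h.P₂ :=
    fun r => Fermat.Agent.S34.H36.frac2_of_res2 K L O₀ q V₂ h.comap₂ h.locS h.locR
      h.locR_algebraMap_S h.locS_mem h.locS_loc h.P₂ (fun _ => Iff.rfl) h.locR_mem₂ _ hres r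
  exact hk.nodeHyp t hmax hθ' h.comap2 hprime h.algebraMap_injective (pullIdeal_isPrime _ _ _)
    (pullIdeal_isPrime _ _ _) h.inf_eq h.surj1 h.comap1 frac2

/-- Unramifiedness away from `q` passes to the semilocal ring. -/
theorem hunr_local
    (hunr : ∀ Q : Ideal C₀, Q.IsPrime → (q : C₀) ∉ Q → Q ≤ x₀ → ∀ a ∈ Q, ∃ b ∉ Q,
      b * a ∈ Ideal.map (algebraMap S₀ C₀) (Q.comap (algebraMap S₀ C₀)))
    (hall : ∀ Q : Ideal (SemiLoc C₀ s), Q.IsPrime →
      Q ≤ Ideal.map (algebraMap C₀ (SemiLoc C₀ s)) x₀) :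
    ∀ Q : Ideal (SemiLoc C₀ s), Q.IsPrime → (q : SemiLoc C₀ s) ∉ Q → ∀ a ∈ Q, ∃ b ∉ Q,
      b * a ∈ Ideal.map (algebraMap (Localization.AtPrime s) (SemiLoc C₀ s))
        (Q.comap (algebraMap (Localization.AtPrime s) (SemiLoc C₀ s))) := by
  intro Q hQ hqQ a ha
  obtain ⟨c, d, hd, hac⟩ := h.repR a
  have hu := h.isUnit_algebraMap_R hd
  have hQ' : (Q.comap (algebraMap C₀ (SemiLoc C₀ s))).IsPrime := Ideal.comap_isPrime _ _
  have hQle : Q.comap (algebraMap C₀ (SemiLoc C₀ s)) ≤ x₀ := fun y hy =>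
    (h.algebraMap_mem_map_x₀_iff y).mp (hall Q hQ hy)
  have hqQ' : (q : C₀) ∉ Q.comap (algebraMap C₀ (SemiLoc C₀ s)) := fun hm => hqQ (by
    have h1 : algebraMap C₀ (SemiLoc C₀ s) (q : C₀) ∈ Q := hm
    rwa [map_natCast] at h1)
  have hc : c ∈ Q.comap (algebraMap C₀ (SemiLoc C₀ s)) := by
    show algebraMap C₀ (SemiLoc C₀ s) c ∈ Q
    rw [← hac]
    exact Q.mul_mem_right _ ha
  obtain ⟨b', hb', hbc⟩ := hunr _ hQ' hqQ' hQle c hc
  refine ⟨algebraMap C₀ (SemiLoc C₀ s) b' * algebraMap C₀ (SemiLoc C₀ s) (algebraMap S₀ C₀ d),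
    fun hm => hb' ((Ideal.mul_unit_mem_iff_mem _ hu).mp hm), ?_⟩
  have e : algebraMap C₀ (SemiLoc C₀ s) b' * algebraMap C₀ (SemiLoc C₀ s) (algebraMap S₀ C₀ d) * a =
      algebraMap C₀ (SemiLoc C₀ s) (b' * c) := by
    rw [map_mul, ← hac]
    ring
  rw [e]
  have h1 : algebraMap C₀ (SemiLoc C₀ s) (b' * c) ∈
      Ideal.map (algebraMap C₀ (SemiLoc C₀ s)) (Ideal.map (algebraMap S₀ C₀)
        ((Q.comap (algebraMap C₀ (SemiLoc C₀ s))).comap (algebraMap S₀ C₀))) :=
    Ideal.mem_map_of_mem _ hbc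
  rw [Ideal.map_map] at h1
  have h2 : (algebraMap C₀ (SemiLoc C₀ s)).comp (algebraMap S₀ C₀) =
      (algebraMap (Localization.AtPrime s) (SemiLoc C₀ s)).comp
        (algebraMap S₀ (Localization.AtPrime s)) := by
    ext a₀
    simp only [RingHom.comp_apply]
    exact (h.algebraMap_S_S₀ a₀).symm
  rw [h2, ← Ideal.map_map] at h1
  refine Ideal.map_mono ?_ h1
  rw [Ideal.map_le_iff_le_comap]
  intro a₀ ha₀
  show algebraMap (Localization.AtPrime s) (SemiLoc C₀ s)
    (algebraMap S₀ (Localization.AtPrime s) a₀) ∈ Q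
  rw [h.algebraMap_S_S₀]
  exact ha₀

/-- **The regular node on the semilocal ring**: it is local, its maximal ideal lies over the
crossing point `x₀`, and `m = (J, b)` with `J * b = q`. -/
theorem regular [IsNoetherianRing S₀] [Module.Finite S₀ C₀] [FiniteDimensional K L]
    [IsDiscreteValuationRing O₀] (hne : V₁ ≠ V₂) (hdeg : Module.finrank K L = q + 1)
    (hprime : Prime (q : Localization.AtPrime s)) (t : S₀)
    (hmax : maximalIdeal (Localization.AtPrime s) =
      Ideal.span {(q : Localization.AtPrime s), algebraMap S₀ (Localization.AtPrime s) t})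
    (w : S₀) (hw : σ w = w) (hwu : algebraMap S₀ K (w - w ^ (q ^ 2)) ∉ O₀.nonunits)
    (hunr : ∀ Q : Ideal C₀, Q.IsPrime → (q : C₀) ∉ Q → Q ≤ x₀ → ∀ a ∈ Q, ∃ b ∉ Q,
      b * a ∈ Ideal.map (algebraMap S₀ C₀) (Q.comap (algebraMap S₀ C₀))) :
    ∃ _ : IsLocalRing (SemiLoc C₀ s), ∃ J b : SemiLoc C₀ s, J * b = (q : SemiLoc C₀ s) ∧
      maximalIdeal (SemiLoc C₀ s) = Ideal.span {J, b} ∧
      (maximalIdeal (SemiLoc C₀ s)).comap (algebraMap C₀ (SemiLoc C₀ s)) = x₀ := by
  obtain ⟨hloc, hnode⟩ := h.nodeHyp hne hdeg hprime t hmax w hw hwu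
  haveI := hloc
  haveI : IsDomain (SemiLoc C₀ s) := h.isDomain_semiLoc
  have hk := h.crossKron
  have hmn : maximalIdeal (SemiLoc C₀ s) = Ideal.map (algebraMap C₀ (SemiLoc C₀ s)) x₀ := by
    apply le_antisymm
    · rw [hnode.max_R]
      exact sup_le hk.le2 ((Ideal.span_singleton_le_iff_mem _).mpr (hk.le1 hnode.x_mem1))
    · exact IsLocalRing.le_maximalIdeal h.map_x₀_isPrime.ne_top
  have hall : ∀ Q : Ideal (SemiLoc C₀ s), Q.IsPrime →
      Q ≤ Ideal.map (algebraMap C₀ (SemiLoc C₀ s)) x₀ := fun Q hQ => by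
    rw [← hmn]
    exact IsLocalRing.le_maximalIdeal hQ.ne_top
  obtain ⟨J, b, hJb, hm, -, -⟩ :=
    Fermat.Agent.S34.H36.regular_of_nodeHyp h.hq hnode (h.hunr_local hunr hall)
  refine ⟨hloc, J, b, hJb, hm, ?_⟩
  rw [hmn]
  exact IsLocalization.under_map_of_isPrime_disjoint _ _ h.prime_x₀ h.disjoint_x₀

/-- **The regular node on the local ring of `C₀` at the crossing point.** -/
theorem regular_atPrime [hx₀ : x₀.IsPrime] [IsNoetherianRing S₀] [Module.Finite S₀ C₀]
    [FiniteDimensional K L] [IsDiscreteValuationRing O₀] (hne : V₁ ≠ V₂)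
    (hdeg : Module.finrank K L = q + 1)
    (hprime : Prime (q : Localization.AtPrime s)) (t : S₀)
    (hmax : maximalIdeal (Localization.AtPrime s) =
      Ideal.span {(q : Localization.AtPrime s), algebraMap S₀ (Localization.AtPrime s) t})
    (w : S₀) (hw : σ w = w) (hwu : algebraMap S₀ K (w - w ^ (q ^ 2)) ∉ O₀.nonunits)
    (hunr : ∀ Q : Ideal C₀, Q.IsPrime → (q : C₀) ∉ Q → Q ≤ x₀ → ∀ a ∈ Q, ∃ b ∉ Q,
      b * a ∈ Ideal.map (algebraMap S₀ C₀) (Q.comap (algebraMap S₀ C₀))) :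
    ∃ J b : Localization.AtPrime x₀, J * b = (q : Localization.AtPrime x₀) ∧
      maximalIdeal (Localization.AtPrime x₀) = Ideal.span {J, b} := by
  obtain ⟨hloc, J, b, hJb, hm, hcomap⟩ := h.regular hne hdeg hprime t hmax w hw hwu hunr
  haveI := hloc
  haveI : IsLocalization.AtPrime (SemiLoc C₀ s) x₀ := by
    refine IsLocalization.of_le (Algebra.algebraMapSubmonoid C₀ s.primeCompl) x₀.primeCompl ?_ ?_
    · rintro y ⟨d, hd, rfl⟩
      show algebraMap S₀ C₀ d ∉ x₀
      intro hy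
      apply hd
      rw [← h.comap_x₀]
      exact hy
    · intro r hr
      have h1 : algebraMap C₀ (SemiLoc C₀ s) r ∉ maximalIdeal (SemiLoc C₀ s) := fun hm' =>
        hr (by rw [← hcomap]; exact hm')
      exact not_not.mp (fun hnu => h1 ((IsLocalRing.mem_maximalIdeal _).mpr hnu))
  let e : SemiLoc C₀ s ≃ₐ[C₀] Localization.AtPrime x₀ :=
    IsLocalization.algEquiv x₀.primeCompl _ _
  have key : ∀ z ∈ maximalIdeal (SemiLoc C₀ s), e z ∈ maximalIdeal (Localization.AtPrime x₀) := by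
    intro z hz
    rw [IsLocalRing.mem_maximalIdeal, mem_nonunits_iff] at hz ⊢
    intro hu
    apply hz
    have h1 := hu.map e.symm
    rwa [AlgEquiv.symm_apply_apply] at h1
  refine ⟨e J, e b, ?_, ?_⟩
  · rw [← map_mul, hJb, map_natCast]
  · ext y
    constructor
    · intro hy
      have hy' : e.symm y ∈ maximalIdeal (SemiLoc C₀ s) := by
        rw [IsLocalRing.mem_maximalIdeal, mem_nonunits_iff] at hy ⊢
        intro hu
        apply hy
        have h1 := hu.map e
        rwa [AlgEquiv.apply_symm_apply] at h1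
      rw [hm, Ideal.mem_span_pair] at hy'
      obtain ⟨a1, a2, ha⟩ := hy'
      rw [Ideal.mem_span_pair]
      refine ⟨e a1, e a2, ?_⟩
      rw [← map_mul, ← map_mul, ← map_add, ha, AlgEquiv.apply_symm_apply]
    · intro hy
      have hJm : J ∈ maximalIdeal (SemiLoc C₀ s) := by
        rw [hm]
        exact Ideal.subset_span (Set.mem_insert _ _)
      have hbm : b ∈ maximalIdeal (SemiLoc C₀ s) := by
        rw [hm]
        exact Ideal.subset_span (Set.mem_insert_of_mem _ rfl)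
      refine (Ideal.span_le.mpr ?_) hy
      rintro z (rfl | hz)
      · exact key _ hJm
      · rw [Set.mem_singleton_iff.mp hz]
        exact key _ hbm

end ChartCrossL

end Loc

end Fermat.Agent.S34.H68
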