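/-
S34 / Program B' (helper68): leaf (L7) of helper30's skeleton `S34/H30/Skeleton.lean`, closed.

`dictStatement : Fermat.Agent.S34.H30.DictStatement` — the function-level target `KummerAt M q p`
gives `B1Exact M q p` — from helper92's landed `S34.H92.b1Exact_of_kummer` and
`ord_eq_of_eq_smul_pow`.  Consequently (`s34_of_loc_model`) the frozen S34 follows from the two
remaining leaves `LocalAbsStatement` and `ModelStatement` alone.
-/
import Mathlib
import Fermat.Agent.S34.H30.Skeleton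
import Fermat.Agent.S34.H92.Dict
import Fermat.Agent.S34.H68.Shell

set_option autoImplicit false

open AlgebraicCurve ModularCurve IsLocalRing
open CuspForm CuspForm.HeckeGaloisRepDatum

namespace Fermat.Agent.S34.H68

/-- **Leaf (L7), the dictionary.** -/
theorem dictStatement : Fermat.Agent.S34.H30.DictStatement := by
  intro M q p _ _ hp hK
  refine Fermat.Agent.S34.H92.b1Exact_of_kummer M q p hp.ne_zero
    (fun n A hA τ hτ u hu hdvd => ?_)
  obtain ⟨c, w, hc, hw, heq⟩ := hK n A hA τ hτ u hu hdvd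
  exact ⟨w, hw, fun v => Fermat.Agent.S34.H92.ord_eq_of_eq_smul_pow (p ^ n) hc hw heq v⟩

/-- **The frozen S34 from the two open leaves of the skeleton `S34/H30/Skeleton.lean`.** -/
theorem s34_of_loc_model (hloc : Fermat.Agent.S34.H30.LocalAbsStatement)
    (hmodel : Fermat.Agent.S34.H30.ModelStatement)
    {𝒪 : Type} [CommRing 𝒪] [IsDomain 𝒪] [IsDiscreteValuationRing 𝒪]
    [IsAdicComplete (maximalIdeal 𝒪) 𝒪] [Finite (ResidueField 𝒪)] [CharZero 𝒪]
    {p : ℕ} (hp : p.Prime) (hp𝒪 : (p : 𝒪) ∈ maximalIdeal 𝒪)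
    {N : ℕ} [NeZero N] {S : Finset ℕ} (hpS : p ∈ S) (hNS : ∀ q : ℕ, q.Prime → q ∣ N → q ∈ S)
    {θ : CuspForm.heckeAlgebra N 2 (↑S : Set ℕ) →+* ResidueField 𝒪}
    {T : Type} [CommRing T] [IsLocalRing T] [IsNoetherianRing T]
    [IsAdicComplete (maximalIdeal T) T] [Algebra 𝒪 T] [IsLocalHom (algebraMap 𝒪 T)]
    [Module.Finite 𝒪 T] [Module.Free 𝒪 T]
    (H : CuspForm.HeckeGaloisRepDatum N (↑S : Set ℕ) 𝒪 θ T)
    (q : ℕ) (hq : q.Prime) (hqp : q ≠ p) (hqN : q ∣ N) (hq2 : ¬ q ^ 2 ∣ N) :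
    H.ρ.IsUnipotentOnInertiaAt q :=
  s34_of_leaves dictStatement hloc hmodel hp hp𝒪 hpS hNS H q hq hqp hqN hq2

end Fermat.Agent.S34.H68
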