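/-
S34 / Program B', M6b (E1), the Hauptmodul cases (helper68): **`H68.HauptUnr`** and the closed
leaf `H77.RegularCrossLeaf`.

* `alpha_notMem_of_both` : on the `E`-forms, for a base function `x` with `j(q^M) · x = N(x)`
  (`N` prime to `X` modulo `q`): a prime of the chart of `α x` lying on both components of the
  special fibre does not contain `α x` (the crossing points are not cusps of the finite chart;
  helper42's `not_both_of_aeval_mem`);
* `unrSupplyAt_of_relX` : supplier (U) for such a base function (helper61's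
  `hunr_cross_le_of_rel_X`);
* `hauptUnr : HauptUnr`;
* `regularCrossLeaf : H77.RegularCrossLeaf`, `crossLeafB_std : H77.CrossLeafB H30.StdB`.
-/
import Fermat.Agent.S34.H68.RegCross
import Fermat.Agent.S34.H61.HUnrRel
import Fermat.Agent.S34.H43.HauptBetaClose
import Fermat.Agent.S34.H4.OneCompLeaf
import Fermat.Agent.S34.H19.HauptRel
import Fermat.Agent.S34.H77.CrossFinal

set_option autoImplicit false
set_option linter.style.haveILetI false
set_option linter.unusedSectionVars false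

open Polynomial IntermediateField ModularCurve AlgebraicCurve

noncomputable section

namespace Fermat.Agent.S34.H68

open Fermat.Agent.S18 Fermat.Agent.S18.H74 Fermat.Agent.S18.H19 Fermat.Agent.S34.H19
  Fermat.Agent.S34.H61 Fermat.Agent.S34.H6 Fermat.Agent.S34.H30
  Fermat.Agent.S34.H77 Fermat.Agent.S34.H92 IsLocalRing

section NonCusp

variable {M q : ℕ} [NeZero M] [hqF : Fact q.Prime] {hqM : ¬ q ∣ M} {A : ValuationSubring Kb}
  {hA : A.LiesOverPrime q} {O₁ : ValuationSubring (FN (M * q))}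
  {w : FN (M * q) ≃+* FN (M * q)}

/-- **A crossing point is not a cusp of the finite chart.**  On the `E`-forms, for a base
function `x` with `j(q^M) · x = N(x)` and `N` prime to `X` modulo `q`: a prime of the chart of
`α x` over `A ∩ E` lying on both components of the special fibre does not contain `α x`. -/
theorem alpha_notMem_of_both (hTG : Fermat.Agent.S34.H64.TwoGauss M q hqM A hA O₁ w) (E : IntermediateField ℚ Kb)
    [IsDiscreteValuationRing ↥(A.comap (algebraMap E Kb))]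
    (x₀ : FN M) (hx : x₀ ∈ ratForm M E)
    (hS : letI := algComap (A.comap (algebraMap E Kb)) (ratForm M E)
      DSetup ↥(A.comap (algebraMap E Kb)) (gaussForm M hqM A hA E) (⟨x₀, hx⟩ : ↥(ratForm M E)))
    (N : ℤ[X])
    (hrel : Fermat.Agent.S18.H28.jtop M * aeval x₀ (X : ℤ[X]) = aeval x₀ N)
    (hcop : ∃ (a b : ℤ[X]) (r : ℤ), ¬ (q : ℤ) ∣ r ∧ a * N + b * X = C r) :
    haveI : NeZero q := ⟨hqF.out.ne_zero⟩
    letI := algComap (A.comap (algebraMap E Kb)) (ratForm (M * q) E)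
    ∀ (y : Ideal ↥(chart ↥(A.comap (algebraMap E Kb)) (alphaForm M q E ⟨x₀, hx⟩))) [y.IsPrime],
      (∀ c : ↥(chart ↥(A.comap (algebraMap E Kb)) (alphaForm M q E ⟨x₀, hx⟩)),
        (c : ↥(ratForm (M * q) E)) ∈ (gaussOne M q O₁ E).nonunits → c ∈ y) →
      (∀ c : ↥(chart ↥(A.comap (algebraMap E Kb)) (alphaForm M q E ⟨x₀, hx⟩)),
        (c : ↥(ratForm (M * q) E)) ∈ (gaussTwoForm M q O₁ w E).nonunits → c ∈ y) →
      (⟨alphaForm M q E ⟨x₀, hx⟩, self_mem_chart ↥(A.comap (algebraMap E Kb)) _⟩ :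
        ↥(chart ↥(A.comap (algebraMap E Kb)) (alphaForm M q E ⟨x₀, hx⟩))) ∉ y := by
  have hq : q.Prime := hqF.out
  haveI : NeZero q := ⟨hq.ne_zero⟩
  letI iK := algComap (A.comap (algebraMap E Kb)) (ratForm M E)
  letI iL := algComap (A.comap (algebraMap E Kb)) (ratForm (M * q) E)
  letI iKL := algAlpha M q E
  letI mK : Module ↥(A.comap (algebraMap E Kb)) ↥(ratForm M E) := iK.toModule
  letI mL : Module ↥(A.comap (algebraMap E Kb)) ↥(ratForm (M * q) E) := iL.toModule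
  letI mKL : Module ↥(ratForm M E) ↥(ratForm (M * q) E) := iKL.toModule
  haveI iT := isScalarTower_algAlpha M q E A
  haveI iF := Fermat.Agent.S34.H78.faithfulSMul_comap A E (ratForm M E)
  haveI iFL := Fermat.Agent.S34.H78.faithfulSMul_comap A E (ratForm (M * q) E)
  intro y _ h₁ h₂ hmem
  -- the chart of `α x` over `A ∩ E`
  have hfinKL := Fermat.Agent.S34.H59.finite_alphaForm M q E hq hqM
  have htr : Transcendental ↥(A.comap (algebraMap E Kb))
      (alphaForm M q E (⟨x₀, hx⟩ : ↥(ratForm M E))) :=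
    transcendental_top (L := ↥(ratForm (M * q) E)) (⟨x₀, hx⟩ : ↥(ratForm M E)) hS.transc
  haveI := hS.finite
  haveI : Module.Finite ↥(ratForm M E) ↥(ratForm (M * q) E) := hfinKL
  have hfin : Module.Finite ↥(H19.ratSub ↥(A.comap (algebraMap E Kb))
      (alphaForm M q E (⟨x₀, hx⟩ : ↥(ratForm M E)))) ↥(ratForm (M * q) E) :=
    finite_ratSub_top (L := ↥(ratForm (M * q) E)) (⟨x₀, hx⟩ : ↥(ratForm M E))
  have hfrac := Fermat.Agent.S18.H95.chart_frac_sub
    (alphaForm M q E (⟨x₀, hx⟩ : ↥(ratForm M E))) htr hfin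
  haveI hicl : IsIntegrallyClosed
      ↥(H19.chart ↥(A.comap (algebraMap E Kb)) (alphaForm M q E (⟨x₀, hx⟩ : ↥(ratForm M E)))) :=
    Fermat.Agent.S18.H95.isIntegrallyClosed_chart (alphaForm M q E (⟨x₀, hx⟩ : ↥(ratForm M E)))
  -- `j(q^M)` on the `E`-form
  have hjrat : Fermat.Agent.S18.H28.jtop M ∈ Set.range (ratEmb M) := ⟨jqNFull M, rfl⟩
  have hjm : Fermat.Agent.S18.H28.jtop M ∈ ratForm M E := mem_ratForm_of_mem_range M E hjrat
  have hj₀ne : (⟨Fermat.Agent.S18.H28.jtop M, hjm⟩ : ↥(ratForm M E)) ≠ 0 := fun h0 =>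
    Fermat.Agent.S34.H42.jFN_ne_zero M M dvd_rfl (congrArg Subtype.val h0)
  have hj₀u : (⟨Fermat.Agent.S18.H28.jtop M, hjm⟩ : ↥(ratForm M E))⁻¹ ∈
      gaussForm M hqM A hA E := by
    show algebraMap ↥(ratForm M E) (FN M)
      (⟨Fermat.Agent.S18.H28.jtop M, hjm⟩ : ↥(ratForm M E))⁻¹ ∈ H66.gaussO A M hA hqM
    rw [map_inv₀]
    exact Fermat.Agent.S34.H4.jtop_inv_mem_gaussO M q hqM A hA
  have hjmemO : Fermat.Agent.S18.H28.jtop M ∈ H66.gaussO A M hA hqM :=
    H66.jFN_mem_gaussO A M hA hqM M dvd_rfl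
  -- the modular equations and the Kronecker congruences for `j(q^M)`
  obtain ⟨Φ, hΦ⟩ := Fermat.Agent.S28.hasModPolys q hq
  obtain ⟨h12, h21⟩ := Fermat.Agent.S34.H43.evalY_alphaForm_betaForm_jtop M q E
    (⟨Fermat.Agent.S18.H28.jtop M, hjm⟩ : ↥(ratForm M E)) rfl hΦ
  obtain ⟨hkj₁F, hkj₂F⟩ :=
    Fermat.Agent.S34.H4.kronecker_rat hTG (Fermat.Agent.S18.H28.jtop M) hjrat hjmemO
  have hkj₁ : betaForm M q E (⟨Fermat.Agent.S18.H28.jtop M, hjm⟩ : ↥(ratForm M E)) -
      alphaForm M q E (⟨Fermat.Agent.S18.H28.jtop M, hjm⟩ : ↥(ratForm M E)) ^ q ∈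
      (gaussOne M q O₁ E).nonunits := by
    rw [gaussOne, mem_nonunits_comap_iff, map_sub, map_pow]
    exact hkj₁F
  have hkj₂ : alphaForm M q E (⟨Fermat.Agent.S18.H28.jtop M, hjm⟩ : ↥(ratForm M E)) -
      betaForm M q E (⟨Fermat.Agent.S18.H28.jtop M, hjm⟩ : ↥(ratForm M E)) ^ q ∈
      (gaussTwoForm M q O₁ w E).nonunits := by
    rw [gaussTwoForm, mem_nonunits_comap_iff, map_sub, map_pow]
    exact hkj₂F
  -- the relation and the coprimality over `A ∩ E`
  have hrelK := Fermat.Agent.S34.H4.rel_form M A E x₀ (Fermat.Agent.S18.H28.jtop M) hx hjm N X hrel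
  have hcopK := Fermat.Agent.S34.H4.isCoprime_map_of_bezout A hA E N X hcop
  -- the chart lies in both Gauss rings
  have hc₁ : ∀ v : ↥(ratForm M E), algebraMap ↥(ratForm M E) ↥(ratForm (M * q) E) v ∈
      gaussOne M q O₁ E ↔ v ∈ gaussForm M hqM A hA E := fun v => alphaForm_mem_comap_iff hTG E v
  have hc₂ : ∀ v : ↥(ratForm M E), algebraMap ↥(ratForm M E) ↥(ratForm (M * q) E) v ∈
      gaussTwoForm M q O₁ w E ↔ v ∈ gaussForm M hqM A hA E :=
    fun v => alphaForm_mem_comap_gaussTwo_iff hTG E v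
  have hCV₁ := chart_top_le (gaussForm M hqM A hA E) (⟨x₀, hx⟩ : ↥(ratForm M E)) hS
    (gaussOne M q O₁ E) hc₁
  have hCV₂ := chart_top_le (gaussForm M hqM A hA E) (⟨x₀, hx⟩ : ↥(ratForm M E)) hS
    (gaussTwoForm M q O₁ w E) hc₂
  have hβV : ∀ v : ↥(ratForm M E), betaForm M q E v ∈ gaussTwoForm M q O₁ w E ↔
      v ∈ gaussForm M hqM A hA E := fun v => hTG.beta_mem_iff₂ (v : FN M)
  have hDx : aeval (⟨algebraMap ↥(ratForm M E) ↥(ratForm (M * q) E) (⟨x₀, hx⟩ : ↥(ratForm M E)),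
        self_mem_chart ↥(A.comap (algebraMap E Kb)) _⟩ :
        ↥(chart ↥(A.comap (algebraMap E Kb))
          (algebraMap ↥(ratForm M E) ↥(ratForm (M * q) E) (⟨x₀, hx⟩ : ↥(ratForm M E)))))
      ((X : ℤ[X]).map (Int.castRingHom ↥(A.comap (algebraMap E Kb)))) ∈ y := by
    rw [Polynomial.map_X, aeval_X]
    exact hmem
  exact Fermat.Agent.S34.H42.not_both_of_aeval_mem (⟨x₀, hx⟩ : ↥(ratForm M E))
    (⟨Fermat.Agent.S18.H28.jtop M, hjm⟩ : ↥(ratForm M E)) hj₀ne (gaussForm M hqM A hA E) hj₀u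
    (gaussOne M q O₁ E) (gaussTwoForm M q O₁ w E) hc₁ (betaForm M q E) hβV hfrac hCV₁ hCV₂
    (N.map (Int.castRingHom ↥(A.comap (algebraMap E Kb))))
    ((X : ℤ[X]).map (Int.castRingHom ↥(A.comap (algebraMap E Kb)))) hrelK hcopK hq hΦ h12 h21
    hkj₁ hkj₂ y hDx ⟨h₁, h₂⟩

/-- **Supplier (U) for a base function with `j(q^M) · x = N(x)`** (a Hauptmodul): helper61's
`hunr_cross_le_of_rel_X` at a crossing point, which is not a cusp of the finite chart. -/
theorem unrSupplyAt_of_relX (hNoEll : NoElliptic M) (hTG : Fermat.Agent.S34.H64.TwoGauss M q hqM A hA O₁ w)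
    (E : IntermediateField ℚ Kb) [IsDiscreteValuationRing ↥(A.comap (algebraMap E Kb))]
    (hqA : Irreducible ((q : ℕ) : ↥(A.comap (algebraMap E Kb))))
    (x₀ : FN M) (hx : x₀ ∈ ratForm M E)
    (hS : letI := algComap (A.comap (algebraMap E Kb)) (ratForm M E)
      DSetup ↥(A.comap (algebraMap E Kb)) (gaussForm M hqM A hA E) (⟨x₀, hx⟩ : ↥(ratForm M E)))
    (N : ℤ[X])
    (hrel : Fermat.Agent.S18.H28.jtop M * aeval x₀ (X : ℤ[X]) = aeval x₀ N)
    (hcop : ∃ (a b : ℤ[X]) (r : ℤ), ¬ (q : ℤ) ∣ r ∧ a * N + b * X = C r) :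
    UnrSupplyAt M q A O₁ w E ⟨x₀, hx⟩ := by
  haveI : NeZero q := ⟨hqF.out.ne_zero⟩
  intro y hymax h₁ h₂
  haveI := hymax.isPrime
  exact Fermat.Agent.S34.H61.hunr_cross_le_of_rel_X M q E A hqF.out hqM hNoEll hqA ⟨x₀, hx⟩ N hrel
    _ hS y (alpha_notMem_of_both hTG E x₀ hx hS N hrel hcop y h₁ h₂)

end NonCusp

section Close

/-- **`H68.HauptUnr`**: supplier (U) for the two Hauptmoduln over the inertia field. -/
theorem hauptUnr : HauptUnr := by
  intro M q _ hqF hqM hlev A hA hAtop O₁ w hTG x₀ hx₀ hH K₀ _ _ hx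
  have hq : q.Prime := hqF.out
  haveI : FiniteDimensional ℚ ↥(inertiaField A K₀) := finiteDimensional_inertiaField A K₀
  haveI : IsDiscreteValuationRing ↥(A.comap (algebraMap (inertiaField A K₀) Kb)) :=
    H78.isDVR_comap hAtop (inertiaField A K₀)
  obtain ⟨π, e, g, hIB, -, -⟩ := inertiaBase_exists A K₀ q hq hA
  have hqA : Irreducible ((q : ℕ) : ↥(A.comap (algebraMap (inertiaField A K₀) Kb))) :=
    hIB.irreducible_natCast hq hA
  have hS := (hx₀.2 (inertiaField A K₀) hx).1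
  rcases hH with ⟨hq3, n, hn, hN, rfl⟩ | ⟨hq2, n, hn, hN, rfl⟩
  · haveI := hn
    exact unrSupplyAt_of_relX hlev.1 hTG (inertiaField A K₀) hqA _ hx hS ((X + C 16) ^ 3)
      (hauptTwo_rel_poly n M hN)
      ⟨1, -(X ^ 2 + C 48 * X + C 768), 4096, not_dvd_4096 hq (by omega), haupt_two_bezout⟩
  · haveI := hn
    exact unrSupplyAt_of_relX hlev.1 hTG (inertiaField A K₀) hqA _ hx hS
      ((X + C 27) * (X + C 3) ^ 3) (hauptThree_rel_poly n M hN)
      ⟨1, -(X ^ 3 + C 36 * X ^ 2 + C 270 * X + C 756), 729, not_dvd_729 hq (by omega),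
        haupt_three_bezout⟩

/-- **(E1), closed: the regular node over the inertia field** for the three standard base
functions. -/
theorem regularCrossLeaf : RegularCrossLeaf :=
  regularCrossLeaf_of Fermat.Agent.S34.H43.hauptBeta hauptUnr

/-- **Leaf (M6b), closed**: the crossing points of the standard model. -/
theorem crossLeafB_std : CrossLeafB StdB :=
  crossLeafB_std_of_regular regularCrossLeaf

end Close

end Fermat.Agent.S34.H68
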